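import Mathlib

/-!
# PROJECT C, slice C2d (local-global dictionary), part 0: a criterion for discrete valuation rings

A Noetherian local ring whose maximal ideal is generated by one non-nilpotent element is a
discrete valuation ring (in particular a domain).
-/

set_option autoImplicit false

namespace Fermat.Agent.CFT.Dict

open IsLocalRing

variable {S : Type*} [CommRing S] [IsLocalRing S] [IsNoetherianRing S]

/-- In a Noetherian local ring with `𝔪 = (π)`, every nonzero element is a unit times a power of
`π`. -/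
theorem exists_eq_pow_mul_unit (π : S) (hmax : maximalIdeal S = Ideal.span {π}) {x : S}
    (hx : x ≠ 0) : ∃ (n : ℕ) (u : Sˣ), x = π ^ n * u := by
  classical
  have hinf : ⨅ i : ℕ, (maximalIdeal S) ^ i = ⊥ :=
    Ideal.iInf_pow_eq_bot_of_isLocalRing _ (Ideal.IsPrime.ne_top inferInstance)
  have hex : ∃ n : ℕ, x ∉ (maximalIdeal S) ^ n := by
    by_contra hcon
    push Not at hcon
    have : x ∈ ⨅ i : ℕ, (maximalIdeal S) ^ i := by
      rw [Ideal.mem_iInf]; exact hcon
    rw [hinf] at this
    exact hx (by simpa using this)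
  have h0 : x ∈ (maximalIdeal S) ^ 0 := by simp
  have hpos : 0 < Nat.find hex := by
    rcases Nat.eq_zero_or_pos (Nat.find hex) with h | h
    · exact absurd h0 (h ▸ Nat.find_spec hex)
    · exact h
  obtain ⟨n, hn⟩ : ∃ n, Nat.find hex = n + 1 := ⟨Nat.find hex - 1, by omega⟩
  have hmem : x ∈ (maximalIdeal S) ^ n := by
    by_contra hcon
    have := Nat.find_min' hex hcon
    omega
  have hnot : x ∉ (maximalIdeal S) ^ (n + 1) := hn ▸ Nat.find_spec hex
  rw [hmax, Ideal.span_singleton_pow, Ideal.mem_span_singleton] at hmem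
  obtain ⟨u, rfl⟩ := hmem
  have hu : IsUnit u := by
    by_contra hcon
    have hmem' : u ∈ maximalIdeal S := (mem_maximalIdeal u).mpr hcon
    rw [hmax, Ideal.mem_span_singleton] at hmem'
    obtain ⟨t, rfl⟩ := hmem'
    apply hnot
    rw [hmax, Ideal.span_singleton_pow, Ideal.mem_span_singleton]
    exact ⟨t, by ring⟩
  exact ⟨n, hu.unit, by simp⟩

/-- A Noetherian local ring whose maximal ideal is generated by a non-nilpotent element is a
domain. -/
theorem isDomain_of_maximalIdeal_eq_span (π : S) (hmax : maximalIdeal S = Ideal.span {π})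
    (hnil : ¬ IsNilpotent π) : IsDomain S := by
  have : NoZeroDivisors S := by
    refine ⟨fun {a b} hab => ?_⟩
    by_contra hcon
    push Not at hcon
    obtain ⟨n, u, rfl⟩ := exists_eq_pow_mul_unit π hmax hcon.1
    obtain ⟨m, v, rfl⟩ := exists_eq_pow_mul_unit π hmax hcon.2
    apply hnil
    refine ⟨n + m, ?_⟩
    have h1 : π ^ (n + m) * ((u * v : Sˣ) : S) = 0 := by
      rw [← hab]; push_cast; ring
    exact (IsUnit.mul_left_eq_zero (u * v).isUnit).mp h1
  exact NoZeroDivisors.to_isDomain S

/-- A Noetherian local ring whose maximal ideal is generated by a non-nilpotent element is a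
discrete valuation ring. -/
theorem isDiscreteValuationRing_of_maximalIdeal_eq_span [IsDomain S] (π : S)
    (hmax : maximalIdeal S = Ideal.span {π}) (hnil : ¬ IsNilpotent π) :
    IsDiscreteValuationRing S := by
  have hπ0 : π ≠ 0 := fun h => hnil (h ▸ IsNilpotent.zero)
  have hfield : ¬ IsField S := by
    intro hf
    have hbot : maximalIdeal S = ⊥ := isField_iff_maximalIdeal_eq.mp hf
    rw [hmax, Ideal.span_singleton_eq_bot] at hbot
    exact hπ0 hbot
  refine ((IsDiscreteValuationRing.TFAE S hfield).out 0 4).mpr ?_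
  rw [hmax]
  exact ⟨⟨π, rfl⟩⟩

end Fermat.Agent.CFT.Dict
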