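import Mathlib
import Fermat.Agent.CFT.Dict.DVRCriterion

/-!
# PROJECT C, slice C2d (local-global dictionary), part 1: the semilocal ring `ℤ_q ⊗ O`

`O` a commutative ring (think `𝓞 F`), `q` a prime, `SL q O := ℤ_[q] ⊗[ℤ] O`.

* `toResidue 𝔮 hq : SL q O →+* O ⧸ 𝔮` for a maximal ideal `𝔮 ∋ q`, with kernel `𝔮 · SL q O`
  (`ker_toResidue`), so `𝔮 · SL q O` is maximal with residue field `O ⧸ 𝔮` and contracts to `𝔮`.
* every maximal ideal of `SL q O` contains `q`; if `O` is a Dedekind domain of characteristic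
  zero, finite over `ℤ`, every maximal ideal of `SL q O` is `𝔮 · SL q O` for a unique maximal
  `𝔮 ∋ q` of `O` (`eq_map_comap_of_isMaximal`).
-/

set_option autoImplicit false
set_option linter.unusedSectionVars false

open scoped TensorProduct

noncomputable section

namespace Fermat.Agent.CFT.Dict

variable (q : ℕ) [Fact q.Prime] (O : Type) [CommRing O]

/-- the semilocal ring `ℤ_q ⊗ O` -/
abbrev SL : Type := ℤ_[q] ⊗[ℤ] O

/-- the canonical map `O → ℤ_q ⊗ O` -/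
def inclO : O →+* SL q O := (Algebra.TensorProduct.includeRight : O →ₐ[ℤ] SL q O).toRingHom

variable {O}

@[simp] theorem inclO_apply (x : O) : inclO q O x = (1 : ℤ_[q]) ⊗ₜ[ℤ] x := rfl

variable (O)

/-- `ℤ_q / q ≃ ℤ / q` -/
def padicIntQuotEquiv : (ℤ_[q] ⧸ Ideal.span {(q : ℤ_[q])}) ≃+* (ℤ ⧸ Ideal.span {(q : ℤ)}) :=
  ((Ideal.quotEquivOfEq (by rw [PadicInt.ker_toZMod, PadicInt.maximalIdeal_eq_span_p])).trans
    (RingHom.quotientKerEquivOfSurjective
      (ZMod.ringHom_surjective (PadicInt.toZMod (p := q))))).trans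
    (Int.quotientSpanNatEquivZMod q).symm

variable {O}

section Residue

variable (𝔮 : Ideal O) (hq : (q : O) ∈ 𝔮)

include hq in
theorem natCast_quot_eq_zero : ((q : ℕ) : O ⧸ 𝔮) = 0 := by
  rw [← map_natCast (Ideal.Quotient.mk 𝔮)]
  exact Ideal.Quotient.eq_zero_iff_mem.mpr hq

/-- `ℤ_q → ℤ_q / q ≃ ℤ / q → O ⧸ 𝔮` for `q ∈ 𝔮`. -/
def padicToQuot : ℤ_[q] →+* O ⧸ 𝔮 :=
  (Ideal.Quotient.lift (Ideal.span {(q : ℤ)}) (Int.castRingHom (O ⧸ 𝔮)) (by
    intro a ha
    rw [Ideal.mem_span_singleton] at ha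
    obtain ⟨c, rfl⟩ := ha
    simp [natCast_quot_eq_zero q 𝔮 hq])).comp
    ((padicIntQuotEquiv q).toRingHom.comp (Ideal.Quotient.mk (Ideal.span {(q : ℤ_[q])})))

theorem padicToQuot_q : padicToQuot q 𝔮 hq (q : ℤ_[q]) = 0 := by
  rw [map_natCast]
  exact natCast_quot_eq_zero q 𝔮 hq

/-- the residue map `ℤ_q ⊗ O → O ⧸ 𝔮` -/
def toResidue : SL q O →+* O ⧸ 𝔮 :=
  (Algebra.TensorProduct.lift (padicToQuot q 𝔮 hq).toIntAlgHom
    (Ideal.Quotient.mk 𝔮).toIntAlgHom (fun _ _ => Commute.all _ _)).toRingHom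

@[simp] theorem toResidue_tmul (a : ℤ_[q]) (x : O) :
    toResidue q 𝔮 hq (a ⊗ₜ[ℤ] x) = padicToQuot q 𝔮 hq a * Ideal.Quotient.mk 𝔮 x := by
  simp [toResidue]

@[simp] theorem toResidue_inclO (x : O) :
    toResidue q 𝔮 hq (inclO q O x) = Ideal.Quotient.mk 𝔮 x := by
  simp

theorem toResidue_surjective : Function.Surjective (toResidue q 𝔮 hq) := by
  intro y
  obtain ⟨x, rfl⟩ := Ideal.Quotient.mk_surjective y
  exact ⟨inclO q O x, toResidue_inclO q 𝔮 hq x⟩

theorem toResidue_q : toResidue q 𝔮 hq (q : SL q O) = 0 := by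
  rw [map_natCast]
  exact natCast_quot_eq_zero q 𝔮 hq

variable (O) in
/-- every element of `ℤ_q ⊗ O` is congruent modulo `q` to an element of `O` -/
theorem exists_inclO_add (r : SL q O) : ∃ (x : O) (r' : SL q O), r = inclO q O x + (q : SL q O) * r' := by
  induction r using TensorProduct.induction_on with
  | zero => exact ⟨0, 0, by simp⟩
  | tmul a x =>
    obtain ⟨n, -, hn⟩ := PadicInt.exists_mem_range a
    rw [PadicInt.maximalIdeal_eq_span_p, Ideal.mem_span_singleton] at hn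
    obtain ⟨a', ha'⟩ := hn
    refine ⟨(n : O) * x, a' ⊗ₜ[ℤ] x, ?_⟩
    have ha : a = (n : ℤ_[q]) + (q : ℤ_[q]) * a' := by rw [← ha']; ring
    have h1 : (q : SL q O) = (q : ℤ_[q]) ⊗ₜ[ℤ] (1 : O) := by
      rw [← map_natCast (algebraMap ℤ_[q] (SL q O))]
      rfl
    have h2 : inclO q O ((n : O) * x) = (n : ℤ_[q]) ⊗ₜ[ℤ] x := by
      rw [map_mul, map_natCast, inclO_apply]
      have : ((n : ℕ) : SL q O) = (n : ℤ_[q]) ⊗ₜ[ℤ] (1 : O) := by
        rw [← map_natCast (algebraMap ℤ_[q] (SL q O))]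
        rfl
      rw [this, Algebra.TensorProduct.tmul_mul_tmul, mul_one, one_mul]
    rw [h2, h1, Algebra.TensorProduct.tmul_mul_tmul, one_mul, ← TensorProduct.add_tmul, ← ha]
  | add r s hr hs =>
    obtain ⟨x, r', rfl⟩ := hr
    obtain ⟨y, s', rfl⟩ := hs
    exact ⟨x + y, r' + s', by rw [map_add]; ring⟩

theorem ker_toResidue :
    RingHom.ker (toResidue q 𝔮 hq) = Ideal.map (inclO q O) 𝔮 := by
  apply le_antisymm
  · intro r hr
    rw [RingHom.mem_ker] at hr
    obtain ⟨x, r', rfl⟩ := exists_inclO_add q O r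
    rw [map_add, map_mul, toResidue_q, zero_mul, add_zero, toResidue_inclO,
      Ideal.Quotient.eq_zero_iff_mem] at hr
    refine Ideal.add_mem _ (Ideal.mem_map_of_mem _ hr) (Ideal.mul_mem_right _ _ ?_)
    have : (q : SL q O) = inclO q O (q : O) := by rw [map_natCast]
    rw [this]
    exact Ideal.mem_map_of_mem _ hq
  · rw [Ideal.map_le_iff_le_comap]
    intro x hx
    rw [Ideal.mem_comap, RingHom.mem_ker, toResidue_inclO, Ideal.Quotient.eq_zero_iff_mem]
    exact hx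

include hq in
theorem map_inclO_isMaximal [𝔮.IsMaximal] : (Ideal.map (inclO q O) 𝔮).IsMaximal := by
  rw [← ker_toResidue q 𝔮 hq]
  let _ := Ideal.Quotient.field 𝔮
  exact RingHom.ker_isMaximal_of_surjective _ (toResidue_surjective q 𝔮 hq)

include hq in
theorem comap_map_inclO : Ideal.comap (inclO q O) (Ideal.map (inclO q O) 𝔮) = 𝔮 := by
  rw [← ker_toResidue q 𝔮 hq]
  ext x
  rw [Ideal.mem_comap, RingHom.mem_ker, toResidue_inclO, Ideal.Quotient.eq_zero_iff_mem]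

/-- the residue field of `ℤ_q ⊗ O` at `𝔮 (ℤ_q ⊗ O)` is `O ⧸ 𝔮` -/
def residueEquiv : (SL q O ⧸ Ideal.map (inclO q O) 𝔮) ≃+* O ⧸ 𝔮 :=
  (Ideal.quotEquivOfEq (ker_toResidue q 𝔮 hq).symm).trans
    (RingHom.quotientKerEquivOfSurjective (toResidue_surjective q 𝔮 hq))

end Residue

section Maximal

variable [Module.Finite ℤ O]

/-- every maximal ideal of `ℤ_q ⊗ O` contains `q` -/
theorem natCast_mem_of_isMaximal (𝔐 : Ideal (SL q O)) [𝔐.IsMaximal] : (q : SL q O) ∈ 𝔐 := by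
  have hmax : (Ideal.comap (algebraMap ℤ_[q] (SL q O)) 𝔐).IsMaximal :=
    Ideal.isMaximal_comap_of_isIntegral_of_isMaximal 𝔐
  have h1 := IsLocalRing.eq_maximalIdeal hmax
  have h2 : (q : ℤ_[q]) ∈ Ideal.comap (algebraMap ℤ_[q] (SL q O)) 𝔐 := by
    rw [h1, PadicInt.maximalIdeal_eq_span_p]
    exact Ideal.mem_span_singleton_self _
  rw [Ideal.mem_comap, map_natCast] at h2
  exact h2

variable [IsDedekindDomain O] [CharZero O]

/-- the contraction of a maximal ideal of `ℤ_q ⊗ O` to `O` contains `q` -/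
theorem natCast_mem_comap (𝔐 : Ideal (SL q O)) [𝔐.IsMaximal] :
    (q : O) ∈ Ideal.comap (inclO q O) 𝔐 := by
  rw [Ideal.mem_comap, map_natCast]
  exact natCast_mem_of_isMaximal q 𝔐

/-- the contraction of a maximal ideal of `ℤ_q ⊗ O` to `O` is maximal -/
theorem comap_inclO_isMaximal (𝔐 : Ideal (SL q O)) [𝔐.IsMaximal] :
    (Ideal.comap (inclO q O) 𝔐).IsMaximal := by
  have hprime : (Ideal.comap (inclO q O) 𝔐).IsPrime := Ideal.comap_isPrime _ _
  refine hprime.isMaximal ?_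
  intro hbot
  have := natCast_mem_comap q 𝔐
  rw [hbot, Ideal.mem_bot] at this
  exact (Fact.out : q.Prime).ne_zero (by exact_mod_cast this)

/-- every maximal ideal of `ℤ_q ⊗ O` is extended from its contraction to `O` -/
theorem eq_map_comap_of_isMaximal (𝔐 : Ideal (SL q O)) [𝔐.IsMaximal] :
    𝔐 = Ideal.map (inclO q O) (Ideal.comap (inclO q O) 𝔐) := by
  have := comap_inclO_isMaximal q 𝔐
  have hmax := map_inclO_isMaximal q (Ideal.comap (inclO q O) 𝔐) (natCast_mem_comap q 𝔐)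
  exact (hmax.eq_of_le (Ideal.IsPrime.ne_top inferInstance) Ideal.map_comap_le).symm

end Maximal

end Fermat.Agent.CFT.Dict
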