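import Mathlib
import Fermat.Agent.CFT.Dict.SemiLocal

/-!
# PROJECT C, slice C2d (local-global dictionary), part 2: the local factors of `ℤ_q ⊗ O`

`O` a Dedekind domain of characteristic zero, finite free over `ℤ`; `v : PrimeOver q O` a maximal
ideal `𝔮` of `O` containing the prime `q`; `𝔐 := 𝔮 (ℤ_q ⊗ O)` (`extIdeal`), and `S` any
localization of `ℤ_q ⊗ O` at `𝔐` (e.g. `v.Loc := Localization.AtPrime 𝔐`).

* `S` is a discrete valuation ring whose maximal ideal is generated by (the image of) any
  `π ∈ 𝔮 ∖ 𝔮²` (`maximalIdeal_eq_span`, `isDomain_Loc`, `isDiscreteValuationRing_Loc`);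
* `toS_mem_maximalIdeal_pow_iff`: for `x : O`, the image of `x` lies in `𝔪_S^k` iff `x ∈ 𝔮^k`
  (the normalised valuation of `S` restricts to the `𝔮`-adic valuation of `O`).
-/

set_option autoImplicit false
set_option linter.unusedSectionVars false

open scoped TensorProduct

open IsLocalRing

noncomputable section

namespace Fermat.Agent.CFT.Dict

variable (q : ℕ) [Fact q.Prime] {O : Type} [CommRing O]

/-- the ideal `𝔮 (ℤ_q ⊗ O)` of `ℤ_q ⊗ O` (maximal if `𝔮` is maximal and contains `q`) -/
abbrev extIdeal (𝔮 : Ideal O) : Ideal (SL q O) := Ideal.map (inclO q O) 𝔮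

/-- a maximal ideal of `O` over `q` -/
structure PrimeOver (q : ℕ) (O : Type) [CommRing O] where
  /-- the ideal -/
  ideal : Ideal O
  isMaximal : ideal.IsMaximal
  mem : (q : O) ∈ ideal

attribute [instance] PrimeOver.isMaximal

/-- the canonical map `O → S` for an algebra `S` over `ℤ_q ⊗ O` -/
def toS (S : Type) [CommRing S] [Algebra (SL q O) S] : O →+* S :=
  (algebraMap (SL q O) S).comp (inclO q O)

theorem toS_natCast (S : Type) [CommRing S] [Algebra (SL q O) S] :
    toS q S (q : O) = (q : S) := map_natCast _ _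

namespace PrimeOver

variable {q}
variable (v : PrimeOver q O)

instance extIdeal_isMaximal : (extIdeal q v.ideal).IsMaximal :=
  map_inclO_isMaximal q v.ideal v.mem

/-- the local factor of `ℤ_q ⊗ O` at `𝔮` -/
abbrev Loc : Type := Localization.AtPrime (extIdeal q v.ideal)

section Dedekind

variable [IsDedekindDomain O] [CharZero O]

theorem ideal_ne_bot : v.ideal ≠ ⊥ := by
  intro h
  have := v.mem
  rw [h, Ideal.mem_bot] at this
  exact (Fact.out : q.Prime).ne_zero (by exact_mod_cast this)

/-- there is a uniformiser of `𝔮` in `O` -/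
theorem exists_uniformizer : ∃ π ∈ v.ideal, π ∉ v.ideal ^ 2 := by
  have hlt : v.ideal ^ (1 + 1) < v.ideal ^ 1 := Ideal.pow_succ_lt_pow v.ideal_ne_bot 1
  rw [pow_one] at hlt
  obtain ⟨π, h1, h2⟩ := SetLike.exists_of_lt hlt
  exact ⟨π, h1, h2⟩

/-- `𝔮^k = (x) + 𝔮^(k+1)` for `x ∈ 𝔮^k ∖ 𝔮^(k+1)` -/
theorem pow_eq_span_sup_pow_succ {k : ℕ} {x : O} (h1 : x ∈ v.ideal ^ k)
    (h2 : x ∉ v.ideal ^ (k + 1)) : v.ideal ^ k = Ideal.span {x} ⊔ v.ideal ^ (k + 1) := by
  refine (Ideal.eq_prime_pow_of_succ_lt_of_le v.ideal_ne_bot ?_ ?_).symm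
  · refine lt_of_le_of_ne le_sup_right ?_
    intro h
    apply h2
    rw [h]
    exact Ideal.mem_sup_left (Ideal.mem_span_singleton_self x)
  · refine sup_le ?_ (Ideal.pow_le_pow_right (Nat.le_succ k))
    rw [Ideal.span_le]
    simpa using h1

end Dedekind

section Abstract

variable (S : Type) [CommRing S] [Algebra (SL q O) S]
  [hS : IsLocalization.AtPrime S (extIdeal q v.ideal)] [IsLocalRing S]

include hS in
theorem map_toS_eq_maximalIdeal : Ideal.map (toS q S) v.ideal = maximalIdeal S := by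
  rw [toS, ← Ideal.map_map]
  exact IsLocalization.AtPrime.map_eq_maximalIdeal (extIdeal q v.ideal) S

variable [IsDedekindDomain O] [CharZero O] [Module.Finite ℤ O] [Module.Free ℤ O]

omit [IsDedekindDomain O] [CharZero O] [Module.Free ℤ O] in
theorem isNoetherianRing_SL : IsNoetherianRing (SL q O) := IsNoetherianRing.of_finite ℤ_[q] _

include hS in
omit [IsDedekindDomain O] [CharZero O] [Module.Free ℤ O] [IsLocalRing S] in
theorem isNoetherianRing_Loc : IsNoetherianRing S :=
  IsLocalization.isNoetherianRing (extIdeal q v.ideal).primeCompl _ (isNoetherianRing_SL (q := q))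

omit [IsDedekindDomain O] [CharZero O] [Module.Finite ℤ O] in
/-- multiplication by `q` is injective on `ℤ_q ⊗ O` -/
theorem eq_zero_of_natCast_mul_eq_zero (r : SL q O) (h : (q : SL q O) * r = 0) : r = 0 := by
  have h1 : (q : ℤ_[q]) • r = 0 := by
    rw [Nat.cast_smul_eq_nsmul, nsmul_eq_mul]; exact h
  have : (q : ℤ_[q]) ≠ 0 := by exact_mod_cast (Fact.out : q.Prime).ne_zero
  exact (smul_eq_zero_iff_right this).mp h1

omit [IsDedekindDomain O] [CharZero O] [Module.Finite ℤ O] in
theorem eq_zero_of_natCast_pow_mul_eq_zero (k : ℕ) (r : SL q O) (h : (q : SL q O) ^ k * r = 0) :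
    r = 0 := by
  induction k with
  | zero => simpa using h
  | succ k ih =>
    apply ih
    apply eq_zero_of_natCast_mul_eq_zero (q := q)
    rw [← mul_assoc, ← pow_succ']
    exact h

include hS in
omit [IsDedekindDomain O] [CharZero O] [Module.Finite ℤ O] [IsLocalRing S] in
/-- `q` is not nilpotent in the local factor -/
theorem natCast_not_isNilpotent : ¬ IsNilpotent (q : S) := by
  rintro ⟨k, hk⟩
  have h1 : algebraMap (SL q O) S ((q : SL q O) ^ k) = 0 := by
    rw [map_pow, map_natCast]; exact hk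
  rw [IsLocalization.map_eq_zero_iff (extIdeal q v.ideal).primeCompl] at h1
  obtain ⟨⟨m, hm⟩, hm'⟩ := h1
  have h2 : m = 0 := by
    apply eq_zero_of_natCast_pow_mul_eq_zero (q := q) k
    rw [mul_comm]; exact hm'
  exact hm (h2 ▸ Ideal.zero_mem _)

include hS in
omit [Module.Free ℤ O] in
/-- the maximal ideal of the local factor is generated by any uniformiser of `𝔮` -/
theorem maximalIdeal_eq_span {π : O} (h1 : π ∈ v.ideal) (h2 : π ∉ v.ideal ^ 2) :
    maximalIdeal S = Ideal.span {toS q S π} := by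
  have := v.isNoetherianRing_Loc S
  apply le_antisymm
  · have hfg : (maximalIdeal S).FG := (isNoetherianRing_iff_ideal_fg S).mp inferInstance _
    refine Submodule.le_of_le_smul_of_le_jacobson_bot (I := maximalIdeal S) hfg ?_ ?_
    · rw [IsLocalRing.jacobson_eq_maximalIdeal ⊥ bot_ne_top]
    · rw [smul_eq_mul, ← pow_two]
      have h3 : v.ideal = Ideal.span {π} ⊔ v.ideal ^ 2 := by
        have := v.pow_eq_span_sup_pow_succ (k := 1) (x := π) (by simpa using h1) h2
        simpa using this
      conv_lhs => rw [← v.map_toS_eq_maximalIdeal S, h3]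
      rw [Ideal.map_sup, Ideal.map_span, Set.image_singleton, Ideal.map_pow,
        v.map_toS_eq_maximalIdeal S]
  · rw [Ideal.span_le, Set.singleton_subset_iff, ← v.map_toS_eq_maximalIdeal S]
    exact Ideal.mem_map_of_mem _ h1

include hS in
theorem toS_uniformizer_not_isNilpotent {π : O} (h1 : π ∈ v.ideal) (h2 : π ∉ v.ideal ^ 2) :
    ¬ IsNilpotent (toS q S π) := by
  intro hnil
  have hq : (q : S) ∈ Ideal.span {toS q S π} := by
    rw [← v.maximalIdeal_eq_span S h1 h2, ← v.map_toS_eq_maximalIdeal S, ← toS_natCast q (O := O) S]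
    exact Ideal.mem_map_of_mem _ v.mem
  rw [Ideal.mem_span_singleton] at hq
  obtain ⟨t, ht⟩ := hq
  apply v.natCast_not_isNilpotent S
  rw [ht]
  exact Commute.isNilpotent_mul_right (Commute.all _ _) hnil

include hS in
theorem isDomain_Loc : IsDomain S := by
  have := v.isNoetherianRing_Loc S
  obtain ⟨π, h1, h2⟩ := v.exists_uniformizer
  exact isDomain_of_maximalIdeal_eq_span _ (v.maximalIdeal_eq_span S h1 h2)
    (v.toS_uniformizer_not_isNilpotent S h1 h2)

include hS in
theorem isDiscreteValuationRing_Loc [IsDomain S] : IsDiscreteValuationRing S := by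
  have := v.isNoetherianRing_Loc S
  obtain ⟨π, h1, h2⟩ := v.exists_uniformizer
  exact isDiscreteValuationRing_of_maximalIdeal_eq_span _ (v.maximalIdeal_eq_span S h1 h2)
    (v.toS_uniformizer_not_isNilpotent S h1 h2)

include hS in
omit [Module.Finite ℤ O] [Module.Free ℤ O] [IsDedekindDomain O] [CharZero O] in
theorem toS_mem_maximalIdeal_pow_of_mem {k : ℕ} {x : O} (hx : x ∈ v.ideal ^ k) :
    toS q S x ∈ maximalIdeal S ^ k := by
  rw [← v.map_toS_eq_maximalIdeal S, ← Ideal.map_pow]
  exact Ideal.mem_map_of_mem _ hx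

include hS in
/-- the normalised valuation of the local factor restricts to the `𝔮`-adic valuation of `O` -/
theorem toS_mem_maximalIdeal_pow_iff {k : ℕ} {x : O} :
    toS q S x ∈ maximalIdeal S ^ k ↔ x ∈ v.ideal ^ k := by
  classical
  refine ⟨fun hx => ?_, v.toS_mem_maximalIdeal_pow_of_mem S⟩
  by_contra hcon
  have hex : ∃ j, x ∉ v.ideal ^ j := ⟨k, hcon⟩
  have hpos : 0 < Nat.find hex := by
    rcases Nat.eq_zero_or_pos (Nat.find hex) with h | h
    · exact absurd (by simp) (h ▸ Nat.find_spec hex)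
    · exact h
  obtain ⟨j, hj⟩ : ∃ j, Nat.find hex = j + 1 := ⟨Nat.find hex - 1, by omega⟩
  have hmem : x ∈ v.ideal ^ j := by
    by_contra hc
    have := Nat.find_min' hex hc
    omega
  have hnot : x ∉ v.ideal ^ (j + 1) := hj ▸ Nat.find_spec hex
  have hjk : j + 1 ≤ k := by
    have := Nat.find_min' hex hcon
    omega
  have h1 := v.pow_eq_span_sup_pow_succ hmem hnot
  have h2 : maximalIdeal S ^ j = Ideal.span {toS q S x} ⊔ maximalIdeal S ^ (j + 1) := by
    have := congrArg (Ideal.map (toS q S)) h1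
    rwa [Ideal.map_sup, Ideal.map_pow, Ideal.map_pow, v.map_toS_eq_maximalIdeal S, Ideal.map_span,
      Set.image_singleton] at this
  have h3 : maximalIdeal S ^ j ≤ maximalIdeal S ^ (j + 1) := by
    rw [h2]
    refine sup_le ?_ le_rfl
    rw [Ideal.span_le, Set.singleton_subset_iff]
    exact Ideal.pow_le_pow_right hjk hx
  have := v.isDomain_Loc S
  have := v.isDiscreteValuationRing_Loc S
  have hne : maximalIdeal S ≠ ⊥ := IsDiscreteValuationRing.not_a_field S
  exact absurd h3 (not_le_of_gt (Ideal.pow_succ_lt_pow hne j))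

end Abstract

end PrimeOver

end Fermat.Agent.CFT.Dict
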