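import Mathlib
import Fermat.Agent.CFT.Idele.Local
import Fermat.Agent.CFT.Dict.LocalDVR

/-!
# PROJECT C, slice C2d (local-global dictionary), part 3a: `ℤ_q ⊗ 𝓞_L → L ⊗ ℚ_q`

`toLoc L q : SL q (𝓞 L) →+* Loc L q` (`a ⊗ x ↦ x ⊗ a`) is injective (`toLoc_injective`), every
element of `Loc L q` becomes integral after multiplication by a power of `q`
(`exists_pow_mul_eq_toLoc`), so `Loc L q` is the localization of `ℤ_q ⊗ 𝓞_L` away from `q`
(`isLocalizationAway`).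
-/

set_option autoImplicit false
set_option linter.unusedSectionVars false

open scoped TensorProduct NumberField Fermat.Agent.CFT.Idele

open Fermat.Agent.CFT.Idele

noncomputable section

namespace Fermat.Agent.CFT.Dict

variable (L : Type) [Field L] [NumberField L] (q : Nat.Primes)

/-- the comparison map `ℤ_q ⊗ 𝓞_L → L ⊗ ℚ_q`, `a ⊗ x ↦ x ⊗ a` -/
def toLoc : SL q (𝓞 L) →+* Loc L q :=
  (Algebra.TensorProduct.lift (inclZ L q).toIntAlgHom
    ((inclL L q).comp (algebraMap (𝓞 L) L)).toIntAlgHom (fun _ _ => Commute.all _ _)).toRingHom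

variable {L q}

@[simp] theorem toLoc_tmul (a : ℤ_[(q : ℕ)]) (x : 𝓞 L) :
    toLoc L q (a ⊗ₜ[ℤ] x) = (x : L) ⊗ₜ[ℚ] (a : ℚ_[(q : ℕ)]) := by
  simp [toLoc, inclZ_apply, inclL_apply]

theorem toLoc_inclO (x : 𝓞 L) : toLoc L q (inclO q (𝓞 L) x) = inclL L q (x : L) := by
  rw [inclO_apply, toLoc_tmul, inclL_apply]; simp

theorem toLoc_algebraMap (a : ℤ_[(q : ℕ)]) :
    toLoc L q (algebraMap ℤ_[(q : ℕ)] (SL q (𝓞 L)) a) = inclZ L q a := by
  rw [Algebra.TensorProduct.algebraMap_apply, toLoc_tmul, inclZ_apply]; simp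

theorem toLoc_comp_algebraMap :
    (toLoc L q).comp (algebraMap ℤ_[(q : ℕ)] (SL q (𝓞 L))) = inclZ L q :=
  RingHom.ext toLoc_algebraMap

variable (L q)

/-- `L ⊗ ℚ_q ≃ ℚ_q ⊗ L` -/
def swapLoc : Loc L q ≃ₐ[ℚ] ℚ_[(q : ℕ)] ⊗[ℚ] L := Algebra.TensorProduct.comm ℚ L ℚ_[(q : ℕ)]

/-- the `ℚ_q`-basis of `ℚ_q ⊗ L` coming from the integral basis of `L` -/
def basisQ : Module.Basis (Module.Free.ChooseBasisIndex ℤ (𝓞 L)) ℚ_[(q : ℕ)]
    (ℚ_[(q : ℕ)] ⊗[ℚ] L) :=
  Algebra.TensorProduct.basis ℚ_[(q : ℕ)] (NumberField.integralBasis L)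

/-- the `ℤ_q`-basis of `ℤ_q ⊗ 𝓞_L` coming from the integral basis of `L` -/
def basisZ : Module.Basis (Module.Free.ChooseBasisIndex ℤ (𝓞 L)) ℤ_[(q : ℕ)] (SL q (𝓞 L)) :=
  Algebra.TensorProduct.basis ℤ_[(q : ℕ)] (NumberField.RingOfIntegers.basis L)

variable {L q}

/-- coordinates of `toLoc r` -/
theorem repr_swapLoc_toLoc (r : SL q (𝓞 L)) (i : Module.Free.ChooseBasisIndex ℤ (𝓞 L)) :
    (basisQ L q).repr (swapLoc L q (toLoc L q r)) i = (((basisZ L q).repr r i : ℤ_[(q : ℕ)]) :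
      ℚ_[(q : ℕ)]) := by
  induction r using TensorProduct.induction_on with
  | zero => simp
  | tmul a x =>
    rw [toLoc_tmul, swapLoc, Algebra.TensorProduct.comm_tmul, basisQ, basisZ,
      Algebra.TensorProduct.basis_repr_tmul, Algebra.TensorProduct.basis_repr_tmul]
    simp only [Finsupp.smul_apply, Finsupp.mapRange_apply, smul_eq_mul]
    rw [NumberField.integralBasis_repr_apply]
    simp
  | add r s hr hs =>
    simp only [map_add, Finsupp.add_apply, hr, hs, PadicInt.coe_add]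

theorem toLoc_injective : Function.Injective (toLoc L q) := by
  rw [injective_iff_map_eq_zero]
  intro r hr
  apply (basisZ L q).repr.injective
  ext i
  have := repr_swapLoc_toLoc r i
  rw [hr, map_zero, map_zero, Finsupp.zero_apply] at this
  rw [map_zero, Finsupp.zero_apply]
  exact PadicInt.coe_eq_zero.mp this.symm

/-- every `p`-adic number becomes integral after multiplication by a power of `p` -/
theorem exists_norm_pow_mul_le_one (p : ℕ) [Fact p.Prime] (c : ℚ_[p]) :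
    ∃ k : ℕ, ‖(p : ℚ_[p]) ^ k * c‖ ≤ 1 := by
  by_cases hc : c = 0
  · exact ⟨0, by simp [hc]⟩
  · have hpos : 0 < ‖c‖ := norm_pos_iff.mpr hc
    obtain ⟨k, hk⟩ := PadicInt.exists_pow_neg_lt p (inv_pos.mpr hpos)
    refine ⟨k, ?_⟩
    rw [norm_mul, Padic.norm_p_pow]
    have := mul_lt_mul_of_pos_right hk hpos
    rw [inv_mul_cancel₀ hpos.ne'] at this
    exact this.le

theorem norm_pow_mul_le_one_of_le (p : ℕ) [Fact p.Prime] (c : ℚ_[p]) {k m : ℕ} (hkm : k ≤ m)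
    (hk : ‖(p : ℚ_[p]) ^ k * c‖ ≤ 1) : ‖(p : ℚ_[p]) ^ m * c‖ ≤ 1 := by
  obtain ⟨d, rfl⟩ := Nat.exists_eq_add_of_le hkm
  rw [pow_add, mul_comm ((p : ℚ_[p]) ^ k), mul_assoc, norm_mul]
  have h1 : ‖(p : ℚ_[p]) ^ d‖ ≤ 1 := by
    rw [norm_pow]
    apply pow_le_one₀ (norm_nonneg _)
    rw [Padic.norm_p]
    exact inv_le_one_of_one_le₀ (by exact_mod_cast (Fact.out : p.Prime).one_lt.le)
  calc ‖(p : ℚ_[p]) ^ d‖ * ‖(p : ℚ_[p]) ^ k * c‖ ≤ 1 * 1 :=
        mul_le_mul h1 hk (norm_nonneg _) zero_le_one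
    _ = 1 := one_mul 1

theorem swapLoc_inclQ_mul (c : ℚ_[(q : ℕ)]) (x : Loc L q) :
    swapLoc L q (inclQ L q c * x) = c • swapLoc L q x := by
  rw [map_mul, Algebra.smul_def]
  congr 1

/-- every element of `L ⊗ ℚ_q` becomes integral after multiplication by a power of `q` -/
theorem exists_pow_mul_eq_toLoc (x : Loc L q) :
    ∃ (m : ℕ) (r : SL q (𝓞 L)), inclQ L q (((q : ℕ) : ℚ_[(q : ℕ)]) ^ m) * x = toLoc L q r := by
  classical
  set c := fun i => (basisQ L q).repr (swapLoc L q x) i with hc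
  choose k hk using fun i => exists_norm_pow_mul_le_one (q : ℕ) (c i)
  set m := ∑ i, k i with hm
  have hm' : ∀ i, ‖((q : ℕ) : ℚ_[(q : ℕ)]) ^ m * c i‖ ≤ 1 := fun i =>
    norm_pow_mul_le_one_of_le (q : ℕ) (c i)
      (Finset.single_le_sum (f := k) (fun _ _ => Nat.zero_le _) (Finset.mem_univ i)) (hk i)
  refine ⟨m, (basisZ L q).repr.symm (Finsupp.equivFunOnFinite.symm
    (fun i => (⟨((q : ℕ) : ℚ_[(q : ℕ)]) ^ m * c i, hm' i⟩ : ℤ_[(q : ℕ)]))), ?_⟩
  apply (swapLoc L q).injective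
  apply (basisQ L q).repr.injective
  ext i
  rw [repr_swapLoc_toLoc, swapLoc_inclQ_mul, map_smul, Finsupp.smul_apply, smul_eq_mul]
  simp [hc]

variable (L q)

/-- `L ⊗ ℚ_q` as an algebra over `ℤ_q ⊗ 𝓞_L` -/
scoped instance algebraLoc : Algebra (SL q (𝓞 L)) (Loc L q) := (toLoc L q).toAlgebra

variable {L q}

theorem algebraMap_eq_toLoc : algebraMap (SL q (𝓞 L)) (Loc L q) = toLoc L q := rfl

theorem toLoc_natCast : toLoc L q ((q : ℕ) : SL q (𝓞 L)) = inclQ L q ((q : ℕ) : ℚ_[(q : ℕ)]) := by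
  rw [map_natCast, map_natCast]

theorem isUnit_inclQ_natCast : IsUnit (inclQ L q ((q : ℕ) : ℚ_[(q : ℕ)])) := by
  apply IsUnit.map
  rw [isUnit_iff_ne_zero]
  exact_mod_cast q.2.ne_zero

variable (L q)

/-- `L ⊗ ℚ_q` is the localization of `ℤ_q ⊗ 𝓞_L` away from `q` -/
instance isLocalizationAway : IsLocalization.Away ((q : ℕ) : SL q (𝓞 L)) (Loc L q) where
  map_units := by
    rintro ⟨y, n, rfl⟩
    rw [algebraMap_eq_toLoc, map_pow, toLoc_natCast]
    exact isUnit_inclQ_natCast.pow n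
  surj := by
    intro z
    obtain ⟨m, r, h⟩ := exists_pow_mul_eq_toLoc z
    refine ⟨(r, ⟨((q : ℕ) : SL q (𝓞 L)) ^ m, m, rfl⟩), ?_⟩
    rw [algebraMap_eq_toLoc, ← h, map_pow, toLoc_natCast, map_pow, mul_comm]
  exists_of_eq := by
    intro x y h
    exact ⟨1, by rw [toLoc_injective h]⟩

end Fermat.Agent.CFT.Dict
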