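import Mathlib
import Fermat.Agent.CFT.Dict.Bridge
import Fermat.Agent.CFT.Local.PowIndex

/-!
# PROJECT C, slice C2d (local-global dictionary), part 3b: valuations on `(L ⊗ ℚ_q)ˣ`

For `v : PrimeOver q (𝓞 L)` (a prime of `𝓞 L` over `q`): `v.Kv = Frac (v.Loc)` is the local field,
`locToKv v : Loc L q →+* v.Kv`, `ordAt v : (Loc L q)ˣ →* Multiplicative ℤ`.
-/

set_option autoImplicit false
set_option linter.unusedSectionVars false

open scoped TensorProduct NumberField Fermat.Agent.CFT.Idele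

open Fermat.Agent.CFT.Idele IsLocalRing

noncomputable section

namespace Fermat.Agent.CFT.Dict

variable {L : Type} [Field L] [NumberField L] {q : Nat.Primes}

namespace PrimeOver

variable (v : PrimeOver (q : ℕ) (𝓞 L))

instance instIsDomainLoc : IsDomain v.Loc := v.isDomain_Loc v.Loc

instance instIsDiscreteValuationRingLoc : IsDiscreteValuationRing v.Loc :=
  v.isDiscreteValuationRing_Loc v.Loc

/-- the local field at `v` -/
abbrev Kv : Type := FractionRing v.Loc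

/-- `ℤ_q ⊗ 𝓞_L → K_v` -/
def slToKv : SL (q : ℕ) (𝓞 L) →+* v.Kv :=
  (algebraMap v.Loc v.Kv).comp (algebraMap (SL (q : ℕ) (𝓞 L)) v.Loc)

theorem slToKv_natCast_ne_zero : v.slToKv ((q : ℕ) : SL (q : ℕ) (𝓞 L)) ≠ 0 := by
  rw [map_natCast]
  intro h
  have h1 : ((q : ℕ) : v.Loc) = 0 := by
    apply IsFractionRing.injective v.Loc v.Kv
    rw [map_natCast, map_zero]; exact h
  exact v.natCast_not_isNilpotent v.Loc (h1 ▸ IsNilpotent.zero)

/-- `L ⊗ ℚ_q → K_v` -/
def locToKv : Idele.Loc L q →+* v.Kv :=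
  IsLocalization.Away.lift ((q : ℕ) : SL (q : ℕ) (𝓞 L)) (g := v.slToKv)
    (isUnit_iff_ne_zero.mpr v.slToKv_natCast_ne_zero)

theorem locToKv_toLoc (r : SL (q : ℕ) (𝓞 L)) : v.locToKv (toLoc L q r) = v.slToKv r :=
  IsLocalization.Away.lift_eq _ _ r

end PrimeOver

/-- every maximal ideal of `ℤ_q ⊗ 𝓞_L` comes from a prime of `𝓞_L` over `q` -/
theorem exists_primeOver_eq (P : Ideal (SL (q : ℕ) (𝓞 L))) [P.IsMaximal] :
    ∃ v : PrimeOver (q : ℕ) (𝓞 L), P = extIdeal (q : ℕ) v.ideal :=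
  ⟨⟨Ideal.comap (inclO (q : ℕ) (𝓞 L)) P, comap_inclO_isMaximal (q : ℕ) P,
    natCast_mem_comap (q : ℕ) P⟩, eq_map_comap_of_isMaximal (q : ℕ) P⟩

/-- local-global principle for divisibility by `q^m` in `ℤ_q ⊗ 𝓞_L` -/
theorem mem_span_pow_of_forall (r : SL (q : ℕ) (𝓞 L)) (m : ℕ)
    (h : ∀ v : PrimeOver (q : ℕ) (𝓞 L),
      algebraMap (SL (q : ℕ) (𝓞 L)) v.Loc r ∈ Ideal.span {((q : ℕ) : v.Loc) ^ m}) :
    r ∈ Ideal.span {((q : ℕ) : SL (q : ℕ) (𝓞 L)) ^ m} := by
  apply Ideal.mem_of_localization_maximal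
  intro P hP
  obtain ⟨v, rfl⟩ := exists_primeOver_eq P
  rw [Ideal.map_span, Set.image_singleton, map_pow, map_natCast]
  exact h v

theorem toLoc_natCast_pow (m : ℕ) :
    toLoc L q (((q : ℕ) : SL (q : ℕ) (𝓞 L)) ^ m) = inclQ L q (((q : ℕ) : ℚ_[(q : ℕ)]) ^ m) := by
  rw [map_pow, map_pow, toLoc_natCast]

theorem isUnit_inclQ_natCast_pow (m : ℕ) : IsUnit (inclQ L q (((q : ℕ) : ℚ_[(q : ℕ)]) ^ m)) := by
  rw [map_pow]; exact isUnit_inclQ_natCast.pow m

theorem PrimeOver.locToKv_inclQ_natCast_pow (v : PrimeOver (q : ℕ) (𝓞 L)) (m : ℕ) :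
    v.locToKv (inclQ L q (((q : ℕ) : ℚ_[(q : ℕ)]) ^ m)) = ((q : ℕ) : v.Kv) ^ m := by
  rw [← toLoc_natCast_pow, v.locToKv_toLoc, map_pow, map_natCast]

/-- an element of `L ⊗ ℚ_q` is in the image of `ℤ_q ⊗ 𝓞_L` iff it is integral at every `v` -/
theorem mem_range_toLoc_iff (x : Loc L q) :
    x ∈ (toLoc L q).range ↔
      ∀ v : PrimeOver (q : ℕ) (𝓞 L), v.locToKv x ∈ Set.range (algebraMap v.Loc v.Kv) := by
  constructor
  · rintro ⟨r, rfl⟩ v
    exact ⟨algebraMap _ v.Loc r, (v.locToKv_toLoc r).symm⟩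
  · intro h
    obtain ⟨m, r, hmr⟩ := exists_pow_mul_eq_toLoc x
    have hr : r ∈ Ideal.span {((q : ℕ) : SL (q : ℕ) (𝓞 L)) ^ m} := by
      apply mem_span_pow_of_forall
      intro v
      obtain ⟨s, hs⟩ := h v
      rw [Ideal.mem_span_singleton]
      refine ⟨s, ?_⟩
      apply IsFractionRing.injective v.Loc v.Kv
      have h1 : ((q : ℕ) : v.Kv) ^ m * algebraMap v.Loc v.Kv s = v.slToKv r := by
        rw [← v.locToKv_inclQ_natCast_pow, hs, ← map_mul, hmr, v.locToKv_toLoc]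
      rw [map_mul, map_pow, map_natCast, h1]
      rfl
    rw [Ideal.mem_span_singleton] at hr
    obtain ⟨r', rfl⟩ := hr
    refine ⟨r', ?_⟩
    rw [map_mul, toLoc_natCast_pow] at hmr
    exact ((isUnit_inclQ_natCast_pow m).mul_left_cancel hmr).symm

theorem PrimeOver.locToKv_comp_inclZ (v : PrimeOver (q : ℕ) (𝓞 L)) :
    v.locToKv.comp (inclZ L q) = (algebraMap v.Loc v.Kv).comp
      ((algebraMap (SL (q : ℕ) (𝓞 L)) v.Loc).comp (algebraMap ℤ_[(q : ℕ)] (SL (q : ℕ) (𝓞 L)))) := by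
  ext a
  rw [RingHom.comp_apply, ← toLoc_algebraMap, v.locToKv_toLoc]
  rfl

/-- the image of `ℤ_q ⊗ 𝓞_L` in `L ⊗ ℚ_q` is the integral closure of `ℤ_q` -/
theorem mem_intRing_iff_mem_range_toLoc (x : Loc L q) :
    x ∈ intRing L q ↔ x ∈ (toLoc L q).range := by
  constructor
  · intro hx
    rw [mem_range_toLoc_iff]
    intro v
    rw [mem_intRing] at hx
    have h1 := RingHom.IsIntegralElem.map hx v.locToKv
    rw [v.locToKv_comp_inclZ] at h1
    have h2 : IsIntegral v.Loc (v.locToKv x) := RingHom.IsIntegralElem.of_comp h1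
    exact IsIntegrallyClosed.isIntegral_iff.mp h2
  · rintro ⟨r, rfl⟩
    rw [mem_intRing, ← toLoc_comp_algebraMap]
    exact RingHom.IsIntegralElem.map (Algebra.IsIntegral.isIntegral (R := ℤ_[(q : ℕ)]) r) _

theorem range_toLoc_eq_intRing : (toLoc L q).range = intRing L q := by
  ext x
  exact (mem_intRing_iff_mem_range_toLoc x).symm

/-- `x` is integral over `ℤ_q` iff it is integral at every prime over `q` -/
theorem mem_intRing_iff_forall (x : Loc L q) :
    x ∈ intRing L q ↔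
      ∀ v : PrimeOver (q : ℕ) (𝓞 L), v.locToKv x ∈ Set.range (algebraMap v.Loc v.Kv) := by
  rw [mem_intRing_iff_mem_range_toLoc, mem_range_toLoc_iff]

open Fermat.Agent.CFT.Local.PowIndex in
/-- the normalised valuation at `v` on `(L ⊗ ℚ_q)ˣ` (a uniformiser goes to `ofAdd (-1)`) -/
def PrimeOver.ordAt (v : PrimeOver (q : ℕ) (𝓞 L)) : (Idele.Loc L q)ˣ →* Multiplicative ℤ :=
  (ordHom v.Loc v.Kv).comp (Units.map (v.locToKv : Idele.Loc L q →* v.Kv))

open Fermat.Agent.CFT.Local.PowIndex in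
theorem PrimeOver.ordAt_eq_one_iff (v : PrimeOver (q : ℕ) (𝓞 L)) (u : (Idele.Loc L q)ˣ) :
    v.ordAt u = 1 ↔ ∃ s : v.Locˣ, algebraMap v.Loc v.Kv s = v.locToKv u := by
  rw [PrimeOver.ordAt, MonoidHom.comp_apply, ← MonoidHom.mem_ker, ← range_unitsMap]
  constructor
  · rintro ⟨s, hs⟩
    exact ⟨s, congrArg Units.val hs⟩
  · rintro ⟨s, hs⟩
    exact ⟨s, Units.ext hs⟩

/-- **local units = kernel of all valuations**: `u ∈ (L ⊗ ℚ_q)ˣ` is an integral unit iff its
valuation at every prime over `q` is trivial -/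
theorem mem_intUnits_iff_forall_ordAt (u : (Loc L q)ˣ) :
    u ∈ intUnits L q ↔ ∀ v : PrimeOver (q : ℕ) (𝓞 L), v.ordAt u = 1 := by
  constructor
  · rintro ⟨h1, h2⟩ v
    rw [mem_intRing_iff_forall] at h1 h2
    obtain ⟨s, hs⟩ := h1 v
    obtain ⟨s', hs'⟩ := h2 v
    rw [v.ordAt_eq_one_iff]
    have hss' : s * s' = 1 := by
      apply IsFractionRing.injective v.Loc v.Kv
      rw [map_mul, hs, hs', ← map_mul, ← Units.val_mul, mul_inv_cancel, Units.val_one, map_one,
        map_one]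
    exact ⟨⟨s, s', hss', by rw [mul_comm]; exact hss'⟩, hs⟩
  · intro h
    have key : ∀ w : (Loc L q)ˣ, (∀ v : PrimeOver (q : ℕ) (𝓞 L), v.ordAt w = 1) →
        (w : Loc L q) ∈ intRing L q := by
      intro w hw
      rw [mem_intRing_iff_forall]
      intro v
      obtain ⟨s, hs⟩ := (v.ordAt_eq_one_iff w).mp (hw v)
      exact ⟨s, hs⟩
    refine ⟨key u h, key u⁻¹ fun v => ?_⟩
    rw [map_inv, h v, inv_one]

section Compare

open IsDedekindDomain WithZero

open scoped WithZero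

/-- two elements `≤ 1` of `ℤᵐ⁰` with the same position relative to all `exp (-n)` are equal -/
theorem eq_of_forall_le_exp_iff {a b : ℤᵐ⁰} (ha : a ≤ 1) (hb : b ≤ 1)
    (h : ∀ n : ℕ, a ≤ exp (-(n : ℤ)) ↔ b ≤ exp (-(n : ℤ))) : a = b := by
  have key : ∀ {a b : ℤᵐ⁰}, b ≤ 1 → (∀ n : ℕ, b ≤ exp (-(n : ℤ)) → a ≤ exp (-(n : ℤ))) → a ≤ b := by
    intro a b hb h
    by_cases hb0 : b = 0
    · subst hb0
      by_contra ha0
      have ha0' : a ≠ 0 := fun h0 => ha0 (h0 ▸ le_rfl)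
      have h1 := h (Int.toNat (-(log a)) + 1) zero_le
      have h2 : exp (log a) ≤ exp (-((Int.toNat (-(log a)) + 1 : ℕ) : ℤ)) := by
        rw [exp_log ha0']; exact h1
      rw [exp_le_exp] at h2
      omega
    · have hlog : log b ≤ 0 := by
        have h2 : exp (log b) ≤ exp 0 := by rw [exp_log hb0, exp_zero]; exact hb
        exact exp_le_exp.mp h2
      have h1 := h (Int.toNat (-(log b))) (by
        rw [Int.toNat_of_nonneg (by omega), neg_neg, exp_log hb0])
      rwa [Int.toNat_of_nonneg (by omega), neg_neg, exp_log hb0] at h1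
  exact le_antisymm (key hb fun n hn => (h n).mpr hn) (key ha fun n hn => (h n).mp hn)

variable (v : PrimeOver (q : ℕ) (𝓞 L))

/-- a prime over `q` as a point of Mathlib's height one spectrum -/
def PrimeOver.toHeightOneSpectrum : HeightOneSpectrum (𝓞 L) :=
  ⟨v.ideal, inferInstance, v.ideal_ne_bot⟩

theorem PrimeOver.locToKv_inclL_algebraMap (x : 𝓞 L) :
    v.locToKv (inclL L q (algebraMap (𝓞 L) L x)) = algebraMap v.Loc v.Kv (toS (q : ℕ) v.Loc x) := by
  rw [← toLoc_inclO, v.locToKv_toLoc]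
  rfl

/-- the valuation of `K_v` restricted to `𝓞 L` is the `v`-adic valuation -/
theorem PrimeOver.intValuation_toS (x : 𝓞 L) :
    (IsDiscreteValuationRing.maximalIdeal v.Loc).intValuation (toS (q : ℕ) v.Loc x) =
      v.toHeightOneSpectrum.intValuation x := by
  apply eq_of_forall_le_exp_iff (HeightOneSpectrum.intValuation_le_one _ _)
    (HeightOneSpectrum.intValuation_le_one _ _)
  intro n
  rw [HeightOneSpectrum.intValuation_le_pow_iff_mem, HeightOneSpectrum.intValuation_le_pow_iff_mem]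
  exact v.toS_mem_maximalIdeal_pow_iff v.Loc

/-- the valuation of `K_v` restricted to `L` is the `v`-adic valuation -/
theorem PrimeOver.valuation_locToKv_inclL (a : L) :
    (IsDiscreteValuationRing.maximalIdeal v.Loc).valuation v.Kv (v.locToKv (inclL L q a)) =
      v.toHeightOneSpectrum.valuation L a := by
  obtain ⟨x, y, hy, rfl⟩ := IsFractionRing.div_surjective (𝓞 L) a
  have hy0 : algebraMap (𝓞 L) L y ≠ 0 := by
    intro h
    exact nonZeroDivisors.ne_zero hy ((map_eq_zero_iff _ (IsFractionRing.injective (𝓞 L) L)).mp h)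
  have e1 : ∀ z : 𝓞 L, (IsDiscreteValuationRing.maximalIdeal v.Loc).valuation v.Kv
      (v.locToKv (inclL L q (algebraMap (𝓞 L) L z))) =
      v.toHeightOneSpectrum.valuation L (algebraMap (𝓞 L) L z) := by
    intro z
    rw [v.locToKv_inclL_algebraMap, HeightOneSpectrum.valuation_of_algebraMap,
      HeightOneSpectrum.valuation_of_algebraMap, v.intValuation_toS]
  have hv0 : v.toHeightOneSpectrum.valuation L (algebraMap (𝓞 L) L y) ≠ 0 :=
    (Valuation.ne_zero_iff _).mpr hy0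
  have h2 : (IsDiscreteValuationRing.maximalIdeal v.Loc).valuation v.Kv
      (v.locToKv (inclL L q (algebraMap (𝓞 L) L x / algebraMap (𝓞 L) L y))) *
      v.toHeightOneSpectrum.valuation L (algebraMap (𝓞 L) L y) =
      v.toHeightOneSpectrum.valuation L (algebraMap (𝓞 L) L x) := by
    rw [← e1 y, ← e1 x, ← map_mul, ← map_mul, ← map_mul, div_mul_cancel₀ _ hy0]
  rw [map_div₀ (v.toHeightOneSpectrum.valuation L), eq_div_iff hv0, h2]

open Fermat.Agent.CFT.Local.PowIndex in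
/-- **(D3)** the valuation at `v` of a principal element is its `v`-adic valuation -/
theorem PrimeOver.coe_ordAt_inclL (a : Lˣ) :
    ((v.ordAt (Units.map (inclL L q : L →* Idele.Loc L q) a) : Multiplicative ℤ) : ℤᵐ⁰) =
      v.toHeightOneSpectrum.valuation L (a : L) := by
  rw [PrimeOver.ordAt, MonoidHom.comp_apply, coe_ordHom]
  exact v.valuation_locToKv_inclL a

end Compare

end Fermat.Agent.CFT.Dict
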