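import Mathlib
import Fermat.Agent.CFT.Dict.Valuation
import Fermat.Agent.CFT.C3.GaloisVal
import Fermat.Agent.CFT.Idele.Class

/-!
# PROJECT C, slice C2d (local-global dictionary), part 4: the places over `q`

* `PrimeOver q (𝓞 L)` is finite, in bijection with the height one primes containing `q`;
* the action of `L ≃ₐ[ℚ] L` on `PrimeOver q (𝓞 L)`;
* **(D5)** the valuations `ordAt v` (`v ∣ q`) are jointly surjective already on `Lˣ`;
* **(D6)** `(σ • v).ordAt (σ u) = v.ordAt u`;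
* the map to the primes of a subfield, transitivity of the Galois action on its fibres.
-/

set_option autoImplicit false
set_option linter.unusedSectionVars false

open scoped TensorProduct NumberField Fermat.Agent.CFT.Idele Pointwise

open Fermat.Agent.CFT.Idele IsDedekindDomain

noncomputable section

namespace Fermat.Agent.CFT.Dict

namespace PrimeOver

theorem ext_ideal {q : ℕ} {O : Type} [CommRing O] {v w : PrimeOver q O} (h : v.ideal = w.ideal) :
    v = w := by
  cases v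
  cases w
  cases h
  rfl

end PrimeOver

variable {L : Type} [Field L] [NumberField L] {q : Nat.Primes}

namespace PrimeOver

theorem toHeightOneSpectrum_asIdeal (v : PrimeOver (q : ℕ) (𝓞 L)) :
    v.toHeightOneSpectrum.asIdeal = v.ideal := rfl

theorem toHeightOneSpectrum_injective :
    Function.Injective (toHeightOneSpectrum : PrimeOver (q : ℕ) (𝓞 L) → HeightOneSpectrum (𝓞 L)) :=
  fun _ _ h => ext_ideal (congrArg HeightOneSpectrum.asIdeal h)

/-- a height one prime containing `q` as a prime over `q` -/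
def ofHeightOneSpectrum (w : HeightOneSpectrum (𝓞 L)) (h : ((q : ℕ) : 𝓞 L) ∈ w.asIdeal) :
    PrimeOver (q : ℕ) (𝓞 L) :=
  ⟨w.asIdeal, w.isMaximal, h⟩

@[simp] theorem toHeightOneSpectrum_ofHeightOneSpectrum (w : HeightOneSpectrum (𝓞 L))
    (h : ((q : ℕ) : 𝓞 L) ∈ w.asIdeal) : (ofHeightOneSpectrum w h).toHeightOneSpectrum = w :=
  HeightOneSpectrum.ext rfl

variable (L q) in
/-- the primes over `q` are the height one primes containing `q` -/
def equivHeightOneSpectrum :
    PrimeOver (q : ℕ) (𝓞 L) ≃ {w : HeightOneSpectrum (𝓞 L) // ((q : ℕ) : 𝓞 L) ∈ w.asIdeal} where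
  toFun v := ⟨v.toHeightOneSpectrum, v.mem⟩
  invFun w := ofHeightOneSpectrum w.1 w.2
  left_inv _ := ext_ideal rfl
  right_inv _ := Subtype.ext (HeightOneSpectrum.ext rfl)

instance instFinite : Finite (PrimeOver (q : ℕ) (𝓞 L)) := by
  have h0 : Ideal.span {((q : ℕ) : 𝓞 L)} ≠ 0 := by
    rw [Ne, Ideal.zero_eq_bot, Ideal.span_singleton_eq_bot]
    exact_mod_cast q.2.ne_zero
  have hfin := Ideal.finite_factors h0
  have : Finite {w : HeightOneSpectrum (𝓞 L) // ((q : ℕ) : 𝓞 L) ∈ w.asIdeal} := by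
    refine (hfin.subset ?_).to_subtype
    intro w hw
    exact Ideal.dvd_span_singleton.mpr hw
  exact Finite.of_equiv _ (equivHeightOneSpectrum L q).symm

instance instFintype : Fintype (PrimeOver (q : ℕ) (𝓞 L)) := Fintype.ofFinite _

instance instDecidableEq : DecidableEq (PrimeOver (q : ℕ) (𝓞 L)) := Classical.decEq _

instance instNonempty : Nonempty (PrimeOver (q : ℕ) (𝓞 L)) := by
  have hq : (Ideal.span {((q : ℕ) : ℤ)}).IsMaximal :=
    PrincipalIdealRing.isMaximal_of_irreducible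
      (Nat.prime_iff_prime_int.mp q.2).irreducible
  obtain ⟨M, hM, hMq⟩ := Ideal.exists_ideal_over_maximal_of_isIntegral (S := 𝓞 L)
    (Ideal.span {((q : ℕ) : ℤ)}) (by
      rw [(RingHom.injective_iff_ker_eq_bot _).mp (FaithfulSMul.algebraMap_injective ℤ (𝓞 L))]
      exact bot_le)
  refine ⟨⟨M, hM, ?_⟩⟩
  have h1 : ((q : ℕ) : ℤ) ∈ M.comap (algebraMap ℤ (𝓞 L)) := by
    rw [hMq]
    exact Ideal.subset_span rfl
  rw [Ideal.mem_comap, map_natCast] at h1
  exact h1

/-! ### The Galois action -/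

/-- the action of `σ` on the primes over `q`: `σ • v = σ(v)` -/
instance instMulAction : MulAction (L ≃ₐ[ℚ] L) (PrimeOver (q : ℕ) (𝓞 L)) where
  smul σ v := ⟨σ • v.ideal, by
      have hmem : ((q : ℕ) : 𝓞 L) ∈ σ • v.ideal := by
        rw [Ideal.mem_pointwise_smul_iff_inv_smul_mem]
        show MulSemiringAction.toRingHom _ (𝓞 L) σ⁻¹ ((q : ℕ) : 𝓞 L) ∈ v.ideal
        rw [map_natCast]
        exact v.mem
      have hprime : (σ • v.ideal).IsPrime := Ideal.IsPrime.smul σ
      refine hprime.isMaximal ?_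
      intro h
      rw [h, Ideal.mem_bot] at hmem
      exact q.2.ne_zero (by exact_mod_cast hmem), by
      rw [Ideal.mem_pointwise_smul_iff_inv_smul_mem]
      show MulSemiringAction.toRingHom _ (𝓞 L) σ⁻¹ ((q : ℕ) : 𝓞 L) ∈ v.ideal
      rw [map_natCast]
      exact v.mem⟩
  one_smul v := ext_ideal (one_smul _ v.ideal)
  mul_smul σ τ v := ext_ideal (mul_smul σ τ v.ideal)

theorem smul_ideal (σ : L ≃ₐ[ℚ] L) (v : PrimeOver (q : ℕ) (𝓞 L)) : (σ • v).ideal = σ • v.ideal := rfl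

theorem mem_smul_ideal (σ : L ≃ₐ[ℚ] L) (v : PrimeOver (q : ℕ) (𝓞 L)) (x : 𝓞 L) :
    x ∈ (σ • v).ideal ↔ σ⁻¹ • x ∈ v.ideal := Ideal.mem_pointwise_smul_iff_inv_smul_mem


/-! ### (D5): joint surjectivity of the valuations -/

open WithZero in
theorem valuation_uniformizer (v : PrimeOver (q : ℕ) (𝓞 L)) {π : 𝓞 L} (h1 : π ∈ v.ideal)
    (h2 : π ∉ v.ideal ^ 2) :
    v.toHeightOneSpectrum.valuation L (algebraMap (𝓞 L) L π) = exp (-1 : ℤ) := by
  rw [HeightOneSpectrum.valuation_of_algebraMap]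
  apply eq_of_forall_le_exp_iff (HeightOneSpectrum.intValuation_le_one _ _)
    (by rw [← exp_zero, exp_le_exp]; omega)
  intro n
  rw [HeightOneSpectrum.intValuation_le_pow_iff_mem, exp_le_exp, toHeightOneSpectrum_asIdeal]
  constructor
  · intro h
    by_contra hn
    have hn2 : 2 ≤ n := by omega
    exact h2 (Ideal.pow_le_pow_right hn2 h)
  · intro h
    have hn : n = 0 ∨ n = 1 := by omega
    rcases hn with rfl | rfl
    · rw [pow_zero, Ideal.one_eq_top]
      exact Submodule.mem_top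
    · rw [pow_one]
      exact h1

/-- a uniformiser at `v` which is a unit at the other primes over `q` -/
theorem exists_uniformizer_away (v : PrimeOver (q : ℕ) (𝓞 L)) :
    ∃ π : 𝓞 L, π ∈ v.ideal ∧ π ∉ v.ideal ^ 2 ∧
      ∀ w : PrimeOver (q : ℕ) (𝓞 L), w ≠ v → π ∉ w.ideal := by
  classical
  obtain ⟨π0, h1, h2⟩ := v.exists_uniformizer
  obtain ⟨y, hy⟩ := IsDedekindDomain.exists_forall_sub_mem_ideal (s := Finset.univ)
    (fun w : PrimeOver (q : ℕ) (𝓞 L) => w.ideal) (fun w => if w = v then 2 else 1)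
    (fun w _ => (Ideal.prime_iff_isPrime w.ideal_ne_bot).mpr inferInstance)
    (fun w _ w' _ hne h => hne (ext_ideal h))
    (fun w => if w.1 = v then π0 else 1)
  have hv := hy v (Finset.mem_univ _)
  simp only [if_true] at hv
  refine ⟨y, ?_, ?_, ?_⟩
  · have : y - π0 ∈ v.ideal := Ideal.pow_le_self two_ne_zero hv
    have h3 := v.ideal.add_mem this h1
    rwa [sub_add_cancel] at h3
  · intro h
    apply h2
    have h3 := (v.ideal ^ 2).sub_mem h hv
    rwa [sub_sub_cancel] at h3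
  · intro w hw h
    have hw' := hy w (Finset.mem_univ _)
    simp only [if_neg hw, pow_one] at hw'
    have h3 := w.ideal.sub_mem h hw'
    rw [sub_sub_cancel] at h3
    exact w.isMaximal.ne_top ((Ideal.eq_top_iff_one _).mpr h3)

open WithZero in
/-- an element of `Lˣ` of valuation `1` at `v` and `0` at the other primes over `q` -/
theorem exists_unit_ordAt (v : PrimeOver (q : ℕ) (𝓞 L)) :
    ∃ a : Lˣ, ∀ w : PrimeOver (q : ℕ) (𝓞 L),
      w.ordAt (Units.map (inclL L q : L →* Idele.Loc L q) a) =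
        if w = v then Multiplicative.ofAdd (-1 : ℤ) else 1 := by
  classical
  obtain ⟨π, h1, h2, h3⟩ := v.exists_uniformizer_away
  have hπ0 : algebraMap (𝓞 L) L π ≠ 0 := by
    intro h
    apply h2
    rw [(map_eq_zero_iff _ (IsFractionRing.injective (𝓞 L) L)).mp h]
    exact Ideal.zero_mem _
  refine ⟨Units.mk0 _ hπ0, fun w => ?_⟩
  apply WithZero.coe_injective
  rw [w.coe_ordAt_inclL, Units.val_mk0]
  by_cases hw : w = v
  · rw [if_pos hw, hw, v.valuation_uniformizer h1 h2]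
    rfl
  · rw [if_neg hw, WithZero.coe_one, HeightOneSpectrum.valuation_eq_one_iff_notMem]
    exact h3 w hw

/-- **(D5)** the valuations at the primes over `q` are jointly surjective already on `Lˣ` -/
theorem exists_forall_ordAt_inclL_eq (f : PrimeOver (q : ℕ) (𝓞 L) → ℤ) :
    ∃ a : Lˣ, ∀ w : PrimeOver (q : ℕ) (𝓞 L),
      w.ordAt (Units.map (inclL L q : L →* Idele.Loc L q) a) = Multiplicative.ofAdd (f w) := by
  classical
  choose a ha using fun v : PrimeOver (q : ℕ) (𝓞 L) => v.exists_unit_ordAt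
  refine ⟨∏ v, a v ^ (-(f v)), fun w => ?_⟩
  rw [map_prod, map_prod]
  simp only [map_zpow, ha]
  rw [Finset.prod_eq_single w]
  · rw [if_pos rfl, ← ofAdd_zsmul]
    congr 1
    simp
  · intro v _ hv
    rw [if_neg (Ne.symm hv), one_zpow]
  · intro h
    exact absurd (Finset.mem_univ w) h

/-- **(D5)** the valuations at the primes over `q` are jointly surjective -/
theorem exists_forall_ordAt_eq (f : PrimeOver (q : ℕ) (𝓞 L) → ℤ) :
    ∃ u : (Idele.Loc L q)ˣ, ∀ w : PrimeOver (q : ℕ) (𝓞 L),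
      w.ordAt u = Multiplicative.ofAdd (f w) := by
  obtain ⟨a, ha⟩ := exists_forall_ordAt_inclL_eq f
  exact ⟨_, ha⟩

/-- every element of `(L ⊗ ℚ_q)ˣ` is a principal element times an integral unit -/
theorem exists_mul_inv_mem_intUnits (u : (Idele.Loc L q)ˣ) :
    ∃ a : Lˣ, u * (Units.map (inclL L q : L →* Idele.Loc L q) a)⁻¹ ∈ intUnits L q := by
  obtain ⟨a, ha⟩ := exists_forall_ordAt_inclL_eq
    (fun w : PrimeOver (q : ℕ) (𝓞 L) => Multiplicative.toAdd (w.ordAt u))
  refine ⟨a, (mem_intUnits_iff_forall_ordAt _).mpr fun w => ?_⟩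
  rw [map_mul, map_inv, ha w, ofAdd_toAdd, mul_inv_cancel]

/-! ### (D6): Galois equivariance of the valuations -/

theorem autUnits_inclL (σ : L ≃ₐ[ℚ] L) (a : Lˣ) :
    autUnits σ q (Units.map (inclL L q : L →* Idele.Loc L q) a) =
      Units.map (inclL L q : L →* Idele.Loc L q) (Units.map (σ : L →* L) a) :=
  Units.ext rfl

theorem toHeightOneSpectrum_smul (σ : L ≃ₐ[ℚ] L) (v : PrimeOver (q : ℕ) (𝓞 L)) :
    (σ • v).toHeightOneSpectrum =
      Fermat.Agent.CFT.C3.GaloisVal.comapEquiv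
        (MulSemiringAction.toRingEquiv (L ≃ₐ[ℚ] L) (𝓞 L) σ⁻¹) v.toHeightOneSpectrum := by
  apply HeightOneSpectrum.ext
  ext x
  rw [toHeightOneSpectrum_asIdeal, mem_smul_ideal]
  rfl

theorem valuation_smul (σ : L ≃ₐ[ℚ] L) (v : PrimeOver (q : ℕ) (𝓞 L)) (a : L) :
    (σ • v).toHeightOneSpectrum.valuation L (σ a) = v.toHeightOneSpectrum.valuation L a := by
  rw [toHeightOneSpectrum_smul,
    Fermat.Agent.CFT.C3.GaloisVal.valuation_comapEquiv _ (σ⁻¹ : L ≃ₐ[ℚ] L).toRingEquiv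
      (fun r => rfl)]
  congr 1
  exact σ.symm_apply_apply a

/-- **(D6)** on principal elements -/
theorem ordAt_smul_inclL (σ : L ≃ₐ[ℚ] L) (v : PrimeOver (q : ℕ) (𝓞 L)) (a : Lˣ) :
    (σ • v).ordAt (Units.map (inclL L q : L →* Idele.Loc L q) (Units.map (σ : L →* L) a)) =
      v.ordAt (Units.map (inclL L q : L →* Idele.Loc L q) a) := by
  apply WithZero.coe_injective
  rw [coe_ordAt_inclL, coe_ordAt_inclL]
  exact valuation_smul σ v a

/-- **(D6)** Galois equivariance of the valuations: `ord_{σ v} (σ u) = ord_v u` -/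
theorem ordAt_smul_autUnits (σ : L ≃ₐ[ℚ] L) (v : PrimeOver (q : ℕ) (𝓞 L))
    (u : (Idele.Loc L q)ˣ) : (σ • v).ordAt (autUnits σ q u) = v.ordAt u := by
  obtain ⟨a, ha⟩ := exists_mul_inv_mem_intUnits u
  obtain ⟨u', hu'⟩ : ∃ u' : (Idele.Loc L q)ˣ,
      u' = u * (Units.map (inclL L q : L →* Idele.Loc L q) a)⁻¹ := ⟨_, rfl⟩
  rw [← hu'] at ha
  have hu : u = u' * Units.map (inclL L q : L →* Idele.Loc L q) a := by
    rw [hu', inv_mul_cancel_right]
  clear hu'
  subst hu
  have h1 : autUnits σ q u' ∈ intUnits L q := (autUnits_mem_intUnits_iff σ q u').mpr ha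
  rw [map_mul, map_mul, map_mul, autUnits_inclL, ordAt_smul_inclL,
    (mem_intUnits_iff_forall_ordAt _).mp h1 (σ • v), (mem_intUnits_iff_forall_ordAt _).mp ha v]

/-! ### The primes of a subfield -/

section Relative

variable {K : Type} [Field K] [NumberField K] [Algebra K L]

/-- the prime of `K` below a prime of `L` over `q` -/
def under (v : PrimeOver (q : ℕ) (𝓞 L)) : PrimeOver (q : ℕ) (𝓞 K) :=
  ⟨v.ideal.under (𝓞 K), inferInstance, by
    rw [Ideal.under_def, Ideal.mem_comap, map_natCast]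
    exact v.mem⟩

theorem under_ideal (v : PrimeOver (q : ℕ) (𝓞 L)) :
    (v.under : PrimeOver (q : ℕ) (𝓞 K)).ideal = v.ideal.under (𝓞 K) := rfl

instance liesOver_under (v : PrimeOver (q : ℕ) (𝓞 L)) :
    v.ideal.LiesOver (v.under : PrimeOver (q : ℕ) (𝓞 K)).ideal := ⟨rfl⟩

theorem under_surjective :
    Function.Surjective (under : PrimeOver (q : ℕ) (𝓞 L) → PrimeOver (q : ℕ) (𝓞 K)) := by
  intro y
  obtain ⟨Q, hQ, hQy⟩ := Ideal.exists_ideal_over_maximal_of_isIntegral (S := 𝓞 L) y.ideal (by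
    rw [(RingHom.injective_iff_ker_eq_bot _).mp (FaithfulSMul.algebraMap_injective (𝓞 K) (𝓞 L))]
    exact bot_le)
  refine ⟨⟨Q, hQ, ?_⟩, ext_ideal hQy⟩
  have h1 : ((q : ℕ) : 𝓞 K) ∈ Q.comap (algebraMap (𝓞 K) (𝓞 L)) := by
    rw [hQy]
    exact y.mem
  rw [Ideal.mem_comap, map_natCast] at h1
  exact h1

theorem restrictScalars_smul_ideal (σ : L ≃ₐ[K] L) (I : Ideal (𝓞 L)) :
    (σ.restrictScalars ℚ) • I = σ • I := by
  ext x
  rw [Ideal.mem_pointwise_smul_iff_inv_smul_mem, Ideal.mem_pointwise_smul_iff_inv_smul_mem]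
  rfl

theorem restrictScalars_smul (σ : L ≃ₐ[K] L) (v : PrimeOver (q : ℕ) (𝓞 L)) :
    ((σ.restrictScalars ℚ) • v).ideal = σ • v.ideal := by
  rw [smul_ideal, restrictScalars_smul_ideal]

/-- the Galois group of `L/K` preserves the prime of `K` below -/
theorem under_smul (σ : L ≃ₐ[K] L) (v : PrimeOver (q : ℕ) (𝓞 L)) :
    (((σ.restrictScalars ℚ) • v).under : PrimeOver (q : ℕ) (𝓞 K)) = v.under := by
  apply ext_ideal
  rw [under_ideal, under_ideal, restrictScalars_smul]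
  ext x
  rw [Ideal.under_def, Ideal.under_def, Ideal.mem_comap, Ideal.mem_comap,
    Ideal.mem_pointwise_smul_iff_inv_smul_mem]
  have h : σ⁻¹ • algebraMap (𝓞 K) (𝓞 L) x = algebraMap (𝓞 K) (𝓞 L) x :=
    Subtype.ext (σ⁻¹.commutes (x : K))
  rw [h]

/-- the Galois group of `L/K` is transitive on the primes over a given prime of `K` -/
theorem exists_smul_eq_of_under_eq [IsGalois K L] {v w : PrimeOver (q : ℕ) (𝓞 L)}
    (h : (v.under : PrimeOver (q : ℕ) (𝓞 K)) = w.under) :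
    ∃ σ : L ≃ₐ[K] L, (σ.restrictScalars ℚ) • v = w := by
  have : w.ideal.LiesOver (v.under : PrimeOver (q : ℕ) (𝓞 K)).ideal := by
    rw [h]
    infer_instance
  obtain ⟨σ, hσ⟩ := Ideal.exists_smul_eq_of_isGaloisGroup
    (v.under : PrimeOver (q : ℕ) (𝓞 K)).ideal v.ideal w.ideal (L ≃ₐ[K] L)
  exact ⟨σ, ext_ideal (by rw [restrictScalars_smul, hσ])⟩

/-- the permutation of the primes over `q` induced by `g` -/
def perm (g : L ≃ₐ[ℚ] L) : Equiv.Perm (PrimeOver (q : ℕ) (𝓞 L)) := MulAction.toPerm g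

theorem perm_apply (g : L ≃ₐ[ℚ] L) (v : PrimeOver (q : ℕ) (𝓞 L)) : perm g v = g • v := rfl

theorem perm_pow (g : L ≃ₐ[ℚ] L) (j : ℕ) :
    (perm g ^ j : Equiv.Perm (PrimeOver (q : ℕ) (𝓞 L))) = perm (g ^ j) :=
  (map_pow (MulAction.toPermHom (L ≃ₐ[ℚ] L) (PrimeOver (q : ℕ) (𝓞 L))) g j).symm

theorem restrictScalars_pow (g : L ≃ₐ[K] L) (j : ℕ) :
    (g.restrictScalars ℚ) ^ j = (g ^ j).restrictScalars ℚ := by
  induction j with
  | zero => rfl
  | succ j ih => rw [pow_succ, pow_succ, ih]; rfl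

theorem perm_pow_apply_of_pow_eq_one (g : L ≃ₐ[K] L) (n : ℕ) (hg : g ^ n = 1)
    (v : PrimeOver (q : ℕ) (𝓞 L)) : (perm (g.restrictScalars ℚ) ^ n) v = v := by
  rw [perm_pow, restrictScalars_pow, hg, perm_apply]
  exact one_smul _ v

/-- transitivity on the fibres, for a generator `g` of `Gal(L/K)` -/
theorem exists_perm_pow_eq_of_under_eq [IsGalois K L] [FiniteDimensional K L] {g : L ≃ₐ[K] L}
    (hgen : ∀ τ : L ≃ₐ[K] L, τ ∈ Subgroup.zpowers g) {v w : PrimeOver (q : ℕ) (𝓞 L)}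
    (h : (v.under : PrimeOver (q : ℕ) (𝓞 K)) = w.under) :
    ∃ j : ℕ, (perm (g.restrictScalars ℚ) ^ j) v = w := by
  obtain ⟨σ, hσ⟩ := exists_smul_eq_of_under_eq h
  obtain ⟨k, hk⟩ := Subgroup.mem_zpowers_iff.mp (hgen σ)
  have hpos : (0 : ℤ) < orderOf g := by exact_mod_cast orderOf_pos g
  refine ⟨(k % orderOf g).toNat, ?_⟩
  have h1 : g ^ (k % orderOf g).toNat = σ := by
    rw [← zpow_natCast, Int.toNat_of_nonneg (Int.emod_nonneg _ hpos.ne'), zpow_mod_orderOf, hk]
  rw [perm_pow, restrictScalars_pow, h1, perm_apply, hσ]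

end Relative

end PrimeOver

end Fermat.Agent.CFT.Dict
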