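import Mathlib
import Fermat.Agent.CFT.Dict.Places
import Fermat.Prelude.Thm_Algebra_finite_maximalSpectrum_and_bijective_localization_of_module_finite

/-!
# PROJECT C, slice C2d (local-global dictionary), part 6: the product decomposition

* `slToPi : ℤ_q ⊗ 𝓞_L → ∏_{v ∣ q} v.Loc` is bijective (structure theorem for finite algebras over
  a complete local ring);
* `v.Loc` is a complete discrete valuation ring with finite residue field, of characteristic zero;
* `locEquivPi : L ⊗ ℚ_q ≃+* ∏_{v ∣ q} v.Kv`, `locUnitsEquivPi` on units, and the integral units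
  correspond to the componentwise units.
-/

set_option autoImplicit false
set_option linter.unusedSectionVars false

open scoped TensorProduct NumberField Fermat.Agent.CFT.Idele

open Fermat.Agent.CFT.Idele IsLocalRing

noncomputable section

namespace Fermat.Agent.CFT.Dict

variable {L : Type} [Field L] [NumberField L] {q : Nat.Primes}

namespace PrimeOver

/-- the maximal ideal of `ℤ_q ⊗ 𝓞_L` attached to a prime over `q` -/
def toMaximalSpectrum (v : PrimeOver (q : ℕ) (𝓞 L)) : MaximalSpectrum (SL (q : ℕ) (𝓞 L)) :=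
  ⟨extIdeal (q : ℕ) v.ideal, inferInstance⟩

theorem toMaximalSpectrum_injective :
    Function.Injective (toMaximalSpectrum : PrimeOver (q : ℕ) (𝓞 L) → _) := by
  intro v w h
  have h1 : extIdeal (q : ℕ) v.ideal = extIdeal (q : ℕ) w.ideal :=
    congrArg MaximalSpectrum.asIdeal h
  apply ext_ideal
  rw [← comap_map_inclO (q : ℕ) v.ideal v.mem, ← comap_map_inclO (q : ℕ) w.ideal w.mem]
  exact congrArg (Ideal.comap (inclO (q : ℕ) (𝓞 L))) h1

theorem toMaximalSpectrum_surjective :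
    Function.Surjective (toMaximalSpectrum : PrimeOver (q : ℕ) (𝓞 L) → _) := by
  intro I
  have := I.isMaximal
  obtain ⟨v, hv⟩ := exists_primeOver_eq I.asIdeal
  exact ⟨v, MaximalSpectrum.ext hv.symm⟩

variable (L q) in
/-- the primes over `q` are the maximal ideals of `ℤ_q ⊗ 𝓞_L` -/
def maxSpecEquiv : PrimeOver (q : ℕ) (𝓞 L) ≃ MaximalSpectrum (SL (q : ℕ) (𝓞 L)) :=
  Equiv.ofBijective toMaximalSpectrum ⟨toMaximalSpectrum_injective, toMaximalSpectrum_surjective⟩

end PrimeOver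

variable (L q) in
/-- `ℤ_q ⊗ 𝓞_L → ∏_{v ∣ q} v.Loc` -/
def slToPi : SL (q : ℕ) (𝓞 L) →+* ∀ v : PrimeOver (q : ℕ) (𝓞 L), v.Loc :=
  RingHom.pi fun v => algebraMap (SL (q : ℕ) (𝓞 L)) v.Loc

theorem slToPi_apply (r : SL (q : ℕ) (𝓞 L)) (v : PrimeOver (q : ℕ) (𝓞 L)) :
    slToPi L q r v = algebraMap (SL (q : ℕ) (𝓞 L)) v.Loc r := rfl

/-- a local ring which is complete for its maximal ideal -/
abbrev CompleteLocal (O : Type) [CommRing O] [IsLocalRing O] : Prop :=
  IsAdicComplete (maximalIdeal O) O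

theorem slToPi_bijective : Function.Bijective (slToPi L q) := by
  obtain ⟨-, ⟨hinj, hsurj⟩, -, -⟩ :=
    Algebra.finite_maximalSpectrum_and_bijective_localization_of_module_finite
      (𝒪 := ℤ_[(q : ℕ)]) (SL (q : ℕ) (𝓞 L))
  constructor
  · intro r s h
    apply hinj
    funext I
    obtain ⟨v, rfl⟩ := PrimeOver.toMaximalSpectrum_surjective I
    exact congrFun h v
  · intro y
    obtain ⟨r, hr⟩ := hsurj (Equiv.piCongrLeft
      (fun I : MaximalSpectrum (SL (q : ℕ) (𝓞 L)) => Localization.AtPrime I.asIdeal)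
      (PrimeOver.maxSpecEquiv L q) y)
    refine ⟨r, ?_⟩
    funext v
    have h1 := congrFun hr ((PrimeOver.maxSpecEquiv L q) v)
    rw [Equiv.piCongrLeft_apply_apply] at h1
    exact h1

namespace PrimeOver

variable (v : PrimeOver (q : ℕ) (𝓞 L))

instance instCompleteLocal : CompleteLocal v.Loc := by
  obtain ⟨-, -, -, hc⟩ :=
    Algebra.finite_maximalSpectrum_and_bijective_localization_of_module_finite
      (𝒪 := ℤ_[(q : ℕ)]) (SL (q : ℕ) (𝓞 L))
  exact hc v.toMaximalSpectrum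

instance instFiniteResidueField : Finite (ResidueField v.Loc) := by
  have e1 := IsLocalization.AtPrime.equivQuotMaximalIdeal (extIdeal (q : ℕ) v.ideal) v.Loc
  have e2 := residueEquiv (q : ℕ) v.ideal v.mem
  exact Finite.of_equiv _ (e2.symm.trans e1).toEquiv

theorem locToKv_comp_inclL_injective : Function.Injective (v.locToKv.comp (inclL L q)) :=
  (v.locToKv.comp (inclL L q)).injective

instance instCharZeroKv : CharZero v.Kv :=
  charZero_of_injective_ringHom v.locToKv_comp_inclL_injective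

instance instCharZeroLoc : CharZero v.Loc :=
  (algebraMap v.Loc v.Kv).charZero

end PrimeOver

/-! ### The product decomposition of `L ⊗ ℚ_q` -/

/-- in a discrete valuation ring, every nonzero element divides a power of any nonunit -/
theorem exists_dvd_pow_of_not_isUnit {A : Type*} [CommRing A] [IsDomain A]
    [IsDiscreteValuationRing A] {b c : A} (hb : b ≠ 0) (hc : ¬ IsUnit c) :
    ∃ m : ℕ, b ∣ c ^ m := by
  obtain ⟨ϖ, hϖ⟩ := IsDiscreteValuationRing.exists_irreducible A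
  obtain ⟨n, hn⟩ := IsDiscreteValuationRing.associated_pow_irreducible hb hϖ
  refine ⟨n, hn.dvd.trans (pow_dvd_pow_of_dvd ?_ n)⟩
  have hc' : c ∈ maximalIdeal A := (mem_maximalIdeal c).mpr hc
  rw [hϖ.maximalIdeal_eq, Ideal.mem_span_singleton] at hc'
  exact hc'

theorem PrimeOver.natCast_not_isUnit_of {O : Type} [CommRing O] {q : ℕ} [Fact q.Prime]
    (v : PrimeOver q O) (S : Type) [CommRing S] [Algebra (SL q O) S]
    [IsLocalization.AtPrime S (extIdeal q v.ideal)] [IsLocalRing S] : ¬ IsUnit ((q : ℕ) : S) := by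
  have h : ((q : ℕ) : S) ∈ maximalIdeal S := by
    rw [← v.map_toS_eq_maximalIdeal S, ← toS_natCast (O := O) q S]
    exact Ideal.mem_map_of_mem _ v.mem
  exact (mem_maximalIdeal _).mp h

/-- `K_v = v.Loc[1/q]` -/
theorem PrimeOver.exists_mul_pow_eq_algebraMap (v : PrimeOver (q : ℕ) (𝓞 L)) (y : v.Kv) :
    ∃ (m : ℕ) (a : v.Loc), y * ((q : ℕ) : v.Kv) ^ m = algebraMap v.Loc v.Kv a := by
  obtain ⟨a, b, hb, rfl⟩ := IsFractionRing.div_surjective v.Loc y
  have hb0 : b ≠ 0 := nonZeroDivisors.ne_zero hb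
  obtain ⟨m, c, hc⟩ := exists_dvd_pow_of_not_isUnit hb0 (v.natCast_not_isUnit_of v.Loc)
  refine ⟨m, a * c, ?_⟩
  have hb' : algebraMap v.Loc v.Kv b ≠ 0 := by
    intro h
    exact hb0 ((map_eq_zero_iff _ (IsFractionRing.injective v.Loc v.Kv)).mp h)
  have h1 : ((q : ℕ) : v.Kv) ^ m = algebraMap v.Loc v.Kv b * algebraMap v.Loc v.Kv c := by
    rw [← map_mul, ← hc, map_pow, map_natCast]
  rw [h1, map_mul]
  field_simp

variable (L q) in
/-- `L ⊗ ℚ_q → ∏_{v ∣ q} K_v` -/
def locToKvPi : Idele.Loc L q →+* ∀ v : PrimeOver (q : ℕ) (𝓞 L), v.Kv :=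
  RingHom.pi fun v => v.locToKv

theorem locToKvPi_apply (x : Idele.Loc L q) (v : PrimeOver (q : ℕ) (𝓞 L)) :
    locToKvPi L q x v = v.locToKv x := rfl

theorem locToKvPi_injective : Function.Injective (locToKvPi L q) := by
  rw [injective_iff_map_eq_zero]
  intro x hx
  obtain ⟨m, r, hmr⟩ := exists_pow_mul_eq_toLoc x
  have hr : r = 0 := by
    apply slToPi_bijective.1
    rw [map_zero]
    funext v
    apply IsFractionRing.injective v.Loc v.Kv
    have h1 : v.locToKv x = 0 := congrFun hx v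
    have h2 : v.slToKv r = 0 := by
      rw [← v.locToKv_toLoc, ← hmr, map_mul, h1, mul_zero]
    show algebraMap v.Loc v.Kv (algebraMap (SL (q : ℕ) (𝓞 L)) v.Loc r) = algebraMap v.Loc v.Kv 0
    rw [map_zero]
    exact h2
  rw [hr, map_zero] at hmr
  exact (isUnit_inclQ_natCast_pow m).mul_right_eq_zero.mp hmr

theorem locToKvPi_surjective : Function.Surjective (locToKvPi L q) := by
  classical
  intro y
  choose m a hma using fun v : PrimeOver (q : ℕ) (𝓞 L) => v.exists_mul_pow_eq_algebraMap (y v)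
  set M := ∑ v, m v with hM
  obtain ⟨r, hr⟩ := slToPi_bijective.2 (fun v => a v * ((q : ℕ) : v.Loc) ^ (M - m v))
  obtain ⟨u, hu⟩ := isUnit_inclQ_natCast_pow (L := L) (q := q) M
  refine ⟨(u⁻¹ : (Idele.Loc L q)ˣ) * toLoc L q r, ?_⟩
  funext v
  have hmM : m v ≤ M := Finset.single_le_sum (fun _ _ => Nat.zero_le _) (Finset.mem_univ v)
  have h1 : v.locToKv (u : Idele.Loc L q) = ((q : ℕ) : v.Kv) ^ M := by
    rw [hu, v.locToKv_inclQ_natCast_pow]
  have h2 : v.locToKv ((u⁻¹ : (Idele.Loc L q)ˣ) : Idele.Loc L q) * ((q : ℕ) : v.Kv) ^ M = 1 := by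
    rw [← h1, ← map_mul, ← Units.val_mul, inv_mul_cancel, Units.val_one, map_one]
  have hq0 : ((q : ℕ) : v.Kv) ^ M ≠ 0 := by
    intro h
    rw [h, mul_zero] at h2
    exact zero_ne_one h2
  have h3 : v.locToKv (toLoc L q r) = y v * ((q : ℕ) : v.Kv) ^ M := by
    rw [v.locToKv_toLoc]
    have h4 : algebraMap (SL (q : ℕ) (𝓞 L)) v.Loc r = a v * ((q : ℕ) : v.Loc) ^ (M - m v) :=
      congrFun hr v
    show algebraMap v.Loc v.Kv (algebraMap (SL (q : ℕ) (𝓞 L)) v.Loc r) = _
    rw [h4, map_mul, ← hma v, map_pow, map_natCast, mul_assoc, ← pow_add,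
      Nat.add_sub_cancel' hmM]
  rw [locToKvPi_apply, map_mul, h3, mul_comm (y v), ← mul_assoc, h2, one_mul]

theorem locToKvPi_bijective : Function.Bijective (locToKvPi L q) :=
  ⟨locToKvPi_injective, locToKvPi_surjective⟩

variable (L q) in
/-- **`L ⊗ ℚ_q ≃ ∏_{v ∣ q} K_v`** -/
def locEquivPi : Idele.Loc L q ≃+* ∀ v : PrimeOver (q : ℕ) (𝓞 L), v.Kv :=
  RingEquiv.ofBijective (locToKvPi L q) locToKvPi_bijective

theorem locEquivPi_apply (x : Idele.Loc L q) (v : PrimeOver (q : ℕ) (𝓞 L)) :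
    locEquivPi L q x v = v.locToKv x := rfl

variable (L q) in
/-- **`(L ⊗ ℚ_q)ˣ ≃ ∏_{v ∣ q} K_vˣ`** -/
def locUnitsEquivPi : (Idele.Loc L q)ˣ ≃* ∀ v : PrimeOver (q : ℕ) (𝓞 L), (v.Kv)ˣ :=
  (Units.mapEquiv (locEquivPi L q).toMulEquiv).trans MulEquiv.piUnits

theorem locUnitsEquivPi_apply (u : (Idele.Loc L q)ˣ) (v : PrimeOver (q : ℕ) (𝓞 L)) :
    ((locUnitsEquivPi L q u v : (v.Kv)ˣ) : v.Kv) = v.locToKv (u : Idele.Loc L q) := rfl

theorem locUnitsEquivPi_apply' (u : (Idele.Loc L q)ˣ) (v : PrimeOver (q : ℕ) (𝓞 L)) :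
    locUnitsEquivPi L q u v = Units.map (v.locToKv : Idele.Loc L q →* v.Kv) u :=
  Units.ext rfl

open Fermat.Agent.CFT.Local.PowIndex in
/-- the valuation at `v` through the product decomposition -/
theorem ordHom_locUnitsEquivPi (u : (Idele.Loc L q)ˣ) (v : PrimeOver (q : ℕ) (𝓞 L)) :
    ordHom v.Loc v.Kv (locUnitsEquivPi L q u v) = v.ordAt u := by
  rw [locUnitsEquivPi_apply']
  rfl

/-- **the integral units are the componentwise units** -/
theorem mem_intUnits_iff_forall_mem_range (u : (Idele.Loc L q)ˣ) :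
    u ∈ intUnits L q ↔ ∀ v : PrimeOver (q : ℕ) (𝓞 L),
      locUnitsEquivPi L q u v ∈ (Units.map (algebraMap v.Loc v.Kv : v.Loc →* v.Kv)).range := by
  rw [mem_intUnits_iff_forall_ordAt]
  refine forall_congr' fun v => ?_
  rw [v.ordAt_eq_one_iff]
  constructor
  · rintro ⟨s, hs⟩
    exact ⟨s, Units.ext hs⟩
  · rintro ⟨s, hs⟩
    exact ⟨s, congrArg Units.val hs⟩

end Fermat.Agent.CFT.Dict
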