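import Mathlib
import Fermat.Agent.CFT.Dict.Places
import Fermat.Agent.CFT.C3.ClassGen
import Fermat.Agent.CFT.HerbrandPerm

/-!
# PROJECT C, slice C2d (local-global dictionary), part 5: bookkeeping of fibres

* `fibreCard_under` : the number of primes of `L` over a prime `y` of `K` (over `q`), counted in
  `PrimeOver q (𝓞 L)`, is `(Ideal.primesOver y.ideal (𝓞 L)).ncard`;
* `mult_under` : `HerbrandPerm.mult under n y = n / (Ideal.primesOver y.ideal (𝓞 L)).ncard`;
* `prod_primeOver_eq_prod_aboveQ` : reindexing `∏_{q ∈ T} ∏_{y ∣ q} = ∏_{v ∈ aboveQ K T}`.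
-/

set_option autoImplicit false
set_option linter.unusedSectionVars false

open scoped NumberField

open IsDedekindDomain Fermat.Agent.CFT.HerbrandPerm Fermat.Agent.CFT.C3.ClassGen

noncomputable section

namespace Fermat.Agent.CFT.Dict

namespace PrimeOver

variable {K L : Type} [Field K] [Field L] [NumberField K] [NumberField L] [Algebra K L]
  {q : Nat.Primes}

/-- the primes of `L` over `y`, as a subtype of `PrimeOver q (𝓞 L)`, are Mathlib's `primesOver` -/
def fibreEquivPrimesOver (y : PrimeOver (q : ℕ) (𝓞 K)) :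
    {v : PrimeOver (q : ℕ) (𝓞 L) // v.under = y} ≃ Ideal.primesOver y.ideal (𝓞 L) where
  toFun v := ⟨v.1.ideal, inferInstance, ⟨by
    have h := congrArg PrimeOver.ideal v.2
    rw [under_ideal] at h
    exact h.symm⟩⟩
  invFun P := ⟨⟨P.1, by
      have hP : P.1.IsPrime := P.2.1
      have hlo : P.1.LiesOver y.ideal := P.2.2
      exact Ideal.IsMaximal.of_liesOver_isMaximal P.1 y.ideal, by
      have hlo : P.1.LiesOver y.ideal := P.2.2
      have h1 : ((q : ℕ) : 𝓞 K) ∈ P.1.under (𝓞 K) := by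
        rw [← hlo.over]
        exact y.mem
      rw [Ideal.under_def, Ideal.mem_comap, map_natCast] at h1
      exact h1⟩, by
    have hlo : P.1.LiesOver y.ideal := P.2.2
    exact ext_ideal hlo.over.symm⟩
  left_inv v := Subtype.ext (ext_ideal rfl)
  right_inv P := Subtype.ext rfl

/-- **(F1)** the fibre of `under` over `y` has `(primesOver y.ideal (𝓞 L)).ncard` elements -/
theorem fibreCard_under (y : PrimeOver (q : ℕ) (𝓞 K)) :
    fibreCard (under : PrimeOver (q : ℕ) (𝓞 L) → PrimeOver (q : ℕ) (𝓞 K)) y =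
      (Ideal.primesOver y.ideal (𝓞 L)).ncard := by
  rw [fibreCard, ← Fintype.card_subtype, ← Nat.card_eq_fintype_card,
    Nat.card_congr (fibreEquivPrimesOver y)]
  rfl

theorem mult_under (n : ℕ) (y : PrimeOver (q : ℕ) (𝓞 K)) :
    mult (under : PrimeOver (q : ℕ) (𝓞 L) → PrimeOver (q : ℕ) (𝓞 K)) n y =
      n / (Ideal.primesOver y.ideal (𝓞 L)).ncard := by
  rw [mult, fibreCard_under]

end PrimeOver

section Reindex

variable (K : Type) [Field K] [NumberField K]

theorem PrimeOver.natPrime_toHeightOneSpectrum {q : Nat.Primes} (y : PrimeOver (q : ℕ) (𝓞 K)) :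
    natPrime K y.toHeightOneSpectrum = q :=
  mem_iff_eq_natPrime.mp y.mem

theorem PrimeOver.sigma_ext {q q' : Nat.Primes} (h : q' = q) (y' : PrimeOver (q' : ℕ) (𝓞 K))
    (y : PrimeOver (q : ℕ) (𝓞 K)) (hi : y'.ideal = y.ideal) :
    (⟨q', y'⟩ : Σ q : Nat.Primes, PrimeOver (q : ℕ) (𝓞 K)) = ⟨q, y⟩ := by
  subst h
  exact congrArg _ (PrimeOver.ext_ideal hi)

/-- **(F2)** reindexing: a product over the primes over the rational primes in `T` is a product
over `aboveQ K T` -/
theorem prod_primeOver_eq_prod_aboveQ {M : Type*} [CommMonoid M] (T : Finset Nat.Primes)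
    (f : HeightOneSpectrum (𝓞 K) → M) :
    ∏ q ∈ T, ∏ y : PrimeOver (q : ℕ) (𝓞 K), f y.toHeightOneSpectrum = ∏ v ∈ aboveQ K T, f v := by
  rw [Finset.prod_sigma']
  refine Finset.prod_bij'
    (fun (x : Σ q : Nat.Primes, PrimeOver (q : ℕ) (𝓞 K)) _ => x.2.toHeightOneSpectrum)
    (fun v _ => ⟨natPrime K v, PrimeOver.ofHeightOneSpectrum v (natPrime_mem K v)⟩)
    ?_ ?_ ?_ ?_ ?_
  · rintro ⟨q, y⟩ hx
    rw [Finset.mem_sigma] at hx
    rw [mem_aboveQ, PrimeOver.natPrime_toHeightOneSpectrum]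
    exact hx.1
  · intro v hv
    rw [Finset.mem_sigma]
    exact ⟨mem_aboveQ.mp hv, Finset.mem_univ _⟩
  · rintro ⟨q, y⟩ hx
    exact PrimeOver.sigma_ext K (PrimeOver.natPrime_toHeightOneSpectrum K y) _ y rfl
  · intro v hv
    exact PrimeOver.toHeightOneSpectrum_ofHeightOneSpectrum v _
  · rintro ⟨q, y⟩ hx
    rfl

/-- **(F1)+(F2)** the product of the local multiplicities over the rational primes in `T`, in the
form of the `T`-unit Herbrand quotient (`herbrand_TUnits_cyclic`) -/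
theorem prod_mult_under {L : Type} [Field L] [NumberField L] [Algebra K L] (T : Finset Nat.Primes)
    (n : ℕ) :
    ∏ q ∈ T, ∏ y : PrimeOver (q : ℕ) (𝓞 K),
        (mult (PrimeOver.under : PrimeOver (q : ℕ) (𝓞 L) → PrimeOver (q : ℕ) (𝓞 K)) n y : ℚ) =
      ∏ v ∈ aboveQ K T, ((n / (Ideal.primesOver v.asIdeal (𝓞 L)).ncard : ℕ) : ℚ) := by
  rw [← prod_primeOver_eq_prod_aboveQ K T
    (fun v => ((n / (Ideal.primesOver v.asIdeal (𝓞 L)).ncard : ℕ) : ℚ))]
  refine Finset.prod_congr rfl fun q _ => Finset.prod_congr rfl fun y _ => ?_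
  rw [PrimeOver.mult_under]
  rfl

end Reindex

end Fermat.Agent.CFT.Dict
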