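import Mathlib
import Fermat.Agent.CFT.Dict.Product
import Fermat.Agent.CFT.Semilocal.Finite
import Fermat.Agent.CFT.Local.Model

/-!
# PROJECT C, slice C2d (local-global dictionary), part 8: the factors `K_v` as `q`-adic fields

`v.Kv` is a field finite over `ℚ_q` (model (M2) of Layer B), and its ring of integers
`𝒪 q v.Kv` (spectral norm `≤ 1`) is the image of the complete discrete valuation ring `v.Loc`
(model (M1)).
-/

set_option autoImplicit false
set_option linter.unusedSectionVars false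

open scoped TensorProduct NumberField Fermat.Agent.CFT.Idele Fermat.Agent.CFT.Local.Model

open Fermat.Agent.CFT.Idele IsLocalRing Fermat.Agent.CFT.Local.Model

noncomputable section

namespace Fermat.Agent.CFT.Dict

variable {L : Type} [Field L] [NumberField L] {q : Nat.Primes}

namespace PrimeOver

variable (v : PrimeOver (q : ℕ) (𝓞 L))

theorem locToKv_surjective : Function.Surjective v.locToKv := by
  classical
  intro y
  obtain ⟨x, hx⟩ := locToKvPi_surjective (L := L) (q := q) (Pi.single v y)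
  refine ⟨x, ?_⟩
  have := congrFun hx v
  rwa [locToKvPi_apply, Pi.single_eq_same] at this

/-- the `ℚ_q`-algebra structure of `K_v` -/
instance instAlgebraPadicKv : Algebra ℚ_[(q : ℕ)] v.Kv :=
  (v.locToKv.comp (inclQ L q)).toAlgebra

theorem algebraMap_padic_Kv (c : ℚ_[(q : ℕ)]) :
    algebraMap ℚ_[(q : ℕ)] v.Kv c = v.locToKv (inclQ L q c) := rfl

instance instFiniteDimensionalKv : FiniteDimensional ℚ_[(q : ℕ)] v.Kv := by
  classical
  let b := Module.finBasis ℚ L
  refine Module.Finite.of_surjective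
    (Fintype.linearCombination ℚ_[(q : ℕ)] (fun i => v.locToKv (inclL L q (b i)))) ?_
  intro y
  obtain ⟨x, rfl⟩ := v.locToKv_surjective y
  refine ⟨fun i => Fermat.Agent.CFT.Semilocal.coordQ L q b i x, ?_⟩
  rw [Fintype.linearCombination_apply]
  conv_rhs => rw [Fermat.Agent.CFT.Semilocal.eq_sum_coordQ L q b x, map_sum]
  refine Finset.sum_congr rfl fun i _ => ?_
  rw [Algebra.smul_def, algebraMap_padic_Kv, map_mul, mul_comm]

theorem algebraMap_padicInt_Kv :
    algebraMap ℤ_[(q : ℕ)] v.Kv = v.locToKv.comp (inclZ L q) := rfl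

/-- **(M1) = (M2)**: the ring of integers of the `q`-adic field `K_v` is the image of `v.Loc` -/
theorem mem_𝒪_Kv_iff (y : v.Kv) :
    y ∈ 𝒪 (q : ℕ) v.Kv ↔ y ∈ Set.range (algebraMap v.Loc v.Kv) := by
  rw [mem_𝒪_iff_isIntegral]
  constructor
  · intro h
    have h1 : (algebraMap ℤ_[(q : ℕ)] v.Kv).IsIntegralElem y := h
    rw [algebraMap_padicInt_Kv, v.locToKv_comp_inclZ] at h1
    have h2 : IsIntegral v.Loc y := RingHom.IsIntegralElem.of_comp h1
    exact IsIntegrallyClosed.isIntegral_iff.mp h2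
  · rintro ⟨a, rfl⟩
    obtain ⟨r, hr⟩ := slToPi_bijective.2 (fun w => if h : w = v then h ▸ a else 0)
    have hra : algebraMap (SL (q : ℕ) (𝓞 L)) v.Loc r = a := by
      have := congrFun hr v
      rw [slToPi_apply, dif_pos rfl] at this
      exact this
    have hx : toLoc L q r ∈ intRing L q := by
      rw [← range_toLoc_eq_intRing]
      exact ⟨r, rfl⟩
    rw [mem_intRing] at hx
    have h1 := RingHom.IsIntegralElem.map hx v.locToKv
    rw [v.locToKv_toLoc] at h1
    have h2 : v.slToKv r = algebraMap v.Loc v.Kv a := by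
      rw [← hra]
      rfl
    rw [h2] at h1
    exact h1

theorem coe_𝒪_Kv : ((𝒪 (q : ℕ) v.Kv : ValuationSubring v.Kv) : Set v.Kv) =
    Set.range (algebraMap v.Loc v.Kv) := by
  ext y
  exact v.mem_𝒪_Kv_iff y

end PrimeOver

/-- integrality in `L ⊗ ℚ_q` is integrality in every `q`-adic field `K_v` -/
theorem mem_intRing_iff_forall_mem_𝒪 (x : Idele.Loc L q) :
    x ∈ intRing L q ↔ ∀ v : PrimeOver (q : ℕ) (𝓞 L), v.locToKv x ∈ 𝒪 (q : ℕ) v.Kv := by
  rw [mem_intRing_iff_forall]
  exact forall_congr' fun v => (v.mem_𝒪_Kv_iff _).symm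

/-- the integral units of `L ⊗ ℚ_q` are the elements which are units of `𝒪 q K_v` for all `v` -/
theorem mem_intUnits_iff_forall_mem_𝒪 (u : (Idele.Loc L q)ˣ) :
    u ∈ intUnits L q ↔ ∀ v : PrimeOver (q : ℕ) (𝓞 L),
      v.locToKv (u : Idele.Loc L q) ∈ 𝒪 (q : ℕ) v.Kv ∧
        v.locToKv ((u⁻¹ : (Idele.Loc L q)ˣ) : Idele.Loc L q) ∈ 𝒪 (q : ℕ) v.Kv := by
  rw [mem_intUnits, mem_intRing_iff_forall_mem_𝒪, mem_intRing_iff_forall_mem_𝒪]
  exact ⟨fun h v => ⟨h.1 v, h.2 v⟩, fun h => ⟨fun v => (h v).1, fun v => (h v).2⟩⟩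

end Fermat.Agent.CFT.Dict
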