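import Mathlib
import Fermat.Agent.CFT.Dict.Product
import Fermat.Agent.CFT.Local.PowIndex
import Fermat.Agent.CFT.HerbrandPi

/-!
# PROJECT C, slice C2d (local-global dictionary), part 7: local power indices

For `v ∣ q` a prime of the number field `L`: `[K_vˣ : (K_vˣ)ⁿ] = n · |O_v / n O_v| · |μ_n(K_v)|`
(helper20's `PowIndex.powIdx_field` on the factor `(v.Loc, v.Kv)`), with
`|O_v / n O_v| = 1` for `n` prime to `q`, and `∏_{v ∣ q} |O_v / q O_v| = q ^ [L : ℚ]`.
-/

set_option autoImplicit false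
set_option linter.unusedSectionVars false

open scoped TensorProduct NumberField Fermat.Agent.CFT.Idele

open Fermat.Agent.CFT.Idele IsLocalRing Fermat.Agent.CFT.Local.PowIndex

noncomputable section

namespace Fermat.Agent.CFT.Dict

/-- `|O / n O|` -/
def quotCard (O : Type) [CommRing O] (n : ℕ) : ℕ := Nat.card (O ⧸ Ideal.span {((n : ℕ) : O)})

theorem toAddSubgroup_span_natCast (O : Type) [CommRing O] (n : ℕ) :
    (Ideal.span {((n : ℕ) : O)}).toAddSubgroup = (nsmulAddMonoidHom n : O →+ O).range := by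
  ext x
  rw [Submodule.mem_toAddSubgroup, Ideal.mem_span_singleton', AddMonoidHom.mem_range]
  constructor
  · rintro ⟨a, rfl⟩
    exact ⟨a, by rw [nsmulAddMonoidHom_apply, nsmul_eq_mul, mul_comm]⟩
  · rintro ⟨a, rfl⟩
    exact ⟨a, by rw [nsmulAddMonoidHom_apply, nsmul_eq_mul, mul_comm]⟩

theorem quotCard_eq_index (O : Type) [CommRing O] (n : ℕ) :
    quotCard O n = (nsmulAddMonoidHom n : O →+ O).range.index := by
  rw [quotCard, ← Submodule.cardQuot_apply, Submodule.cardQuot, toAddSubgroup_span_natCast]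

/-- the index of `n A` is invariant under additive isomorphisms -/
theorem index_range_nsmul_congr {A B : Type*} [AddCommGroup A] [AddCommGroup B] (e : A ≃+ B)
    (n : ℕ) :
    (nsmulAddMonoidHom n : A →+ A).range.index = (nsmulAddMonoidHom n : B →+ B).range.index := by
  rw [← AddSubgroup.index_map_equiv _ e]
  congr 1
  ext y
  constructor
  · rintro ⟨_, ⟨a, rfl⟩, rfl⟩
    exact ⟨e a, by simp⟩
  · rintro ⟨b, rfl⟩
    exact ⟨n • e.symm b, ⟨e.symm b, rfl⟩, by simp⟩

theorem quotCard_congr {O O' : Type} [CommRing O] [CommRing O'] (e : O ≃+* O') (n : ℕ) :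
    quotCard O n = quotCard O' n := by
  rw [quotCard_eq_index, quotCard_eq_index]
  exact index_range_nsmul_congr e.toAddEquiv n

/-- `|∏ A_i / n| = ∏ |A_i / n|` -/
theorem quotCard_pi {ι : Type} [Fintype ι] (A : ι → Type) [∀ i, CommRing (A i)] (n : ℕ) :
    quotCard (∀ i, A i) n = ∏ i, quotCard (A i) n := by
  rw [quotCard_eq_index]
  simp_rw [quotCard_eq_index]
  rw [← Fermat.Agent.CFT.HerbrandPi.index_pi_dep]
  congr 1
  ext y
  rw [AddMonoidHom.mem_range, Fermat.Agent.CFT.HerbrandPi.mem_pi_univ]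
  constructor
  · rintro ⟨a, rfl⟩ i
    exact ⟨a i, rfl⟩
  · intro h
    choose a ha using h
    exact ⟨a, funext ha⟩

theorem quotCard_eq_prod_of_bijective {A : Type} [CommRing A] {ι : Type} [Fintype ι]
    (B : ι → Type) [∀ i, CommRing (B i)] (f : A →+* ∀ i, B i) (hf : Function.Bijective f)
    (n : ℕ) : quotCard A n = ∏ i, quotCard (B i) n := by
  rw [quotCard_congr (RingEquiv.ofBijective f hf) n, quotCard_pi]

theorem quotCard_of_isUnit (O : Type) [CommRing O] (n : ℕ) (h : IsUnit ((n : ℕ) : O)) :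
    quotCard O n = 1 := by
  rw [quotCard, Ideal.span_singleton_eq_top.mpr h]
  have : Subsingleton (O ⧸ (⊤ : Ideal O)) := Ideal.Quotient.subsingleton_iff.mpr rfl
  exact Nat.card_unique

variable {L : Type} [Field L] [NumberField L] {q : Nat.Primes}

theorem quotCard_padicInt : quotCard ℤ_[(q : ℕ)] (q : ℕ) = (q : ℕ) := by
  rw [quotCard, ← PadicInt.maximalIdeal_eq_span_p]
  have h := Nat.card_congr (PadicInt.residueField (p := (q : ℕ))).toEquiv
  rw [Nat.card_zmod] at h
  exact h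

variable (L q) in
/-- `|ℤ_q ⊗ 𝓞_L / q| = q ^ [L : ℚ]` -/
theorem quotCard_SL : quotCard (SL (q : ℕ) (𝓞 L)) (q : ℕ) = (q : ℕ) ^ Module.finrank ℚ L := by
  rw [quotCard_eq_index,
    index_range_nsmul_congr (basisZ L q).equivFun.toAddEquiv (q : ℕ), ← quotCard_eq_index,
    quotCard_pi, Finset.prod_const, quotCard_padicInt, Finset.card_univ,
    ← Module.finrank_eq_card_chooseBasisIndex, NumberField.RingOfIntegers.rank]

variable (L q) in
/-- **`∏_{v ∣ q} |O_v / n O_v| = |ℤ_q ⊗ 𝓞_L / n|`** -/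
theorem prod_quotCard (n : ℕ) :
    ∏ v : PrimeOver (q : ℕ) (𝓞 L), quotCard v.Loc n = quotCard (SL (q : ℕ) (𝓞 L)) n := by
  exact (quotCard_eq_prod_of_bijective (fun v : PrimeOver (q : ℕ) (𝓞 L) => v.Loc) (slToPi L q)
    slToPi_bijective n).symm

variable (L q) in
/-- **`∏_{v ∣ q} |O_v / q O_v| = q ^ [L : ℚ]`** -/
theorem prod_quotCard_self :
    ∏ v : PrimeOver (q : ℕ) (𝓞 L), quotCard v.Loc (q : ℕ) = (q : ℕ) ^ Module.finrank ℚ L := by
  rw [prod_quotCard, quotCard_SL]

/-- in a local ring in which `q` is not a unit, every integer prime to `q` is a unit -/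
theorem isUnit_natCast_of_coprime {S : Type*} [CommRing S] [IsLocalRing S] {q n : ℕ}
    (hq : ¬ IsUnit ((q : ℕ) : S)) (h : Nat.Coprime q n) : IsUnit ((n : ℕ) : S) := by
  by_contra hn
  have h1 : ((q : ℕ) : S) ∈ maximalIdeal S := (mem_maximalIdeal _).mpr hq
  have h2 : ((n : ℕ) : S) ∈ maximalIdeal S := (mem_maximalIdeal _).mpr hn
  have h3 : ((q : ℤ) * Nat.gcdA q n + (n : ℤ) * Nat.gcdB q n : ℤ) = 1 := by
    rw [← Nat.gcd_eq_gcd_ab, h]
    rfl
  have h4 : (1 : S) ∈ maximalIdeal S := by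
    have h5 := congrArg (Int.cast : ℤ → S) h3
    push_cast at h5
    rw [← h5]
    exact Ideal.add_mem _ (Ideal.mul_mem_right _ _ h1) (Ideal.mul_mem_right _ _ h2)
  exact (maximalIdeal.isMaximal S).ne_top ((Ideal.eq_top_iff_one _).mpr h4)

namespace PrimeOver

variable (v : PrimeOver (q : ℕ) (𝓞 L))

/-- `|O_v / n O_v| = 1` for `n` prime to `q` -/
theorem quotCard_of_coprime {n : ℕ} (h : Nat.Coprime (q : ℕ) n) : quotCard v.Loc n = 1 :=
  quotCard_of_isUnit _ _ (isUnit_natCast_of_coprime (v.natCast_not_isUnit_of v.Loc) h)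

/-- **the `n`-th power index of `K_v`** (helper20's `powIdx_field` on the factor at `v`) -/
theorem powIdx_Kv {n : ℕ} (hn : n ≠ 0) :
    PowDefined (v.Kv)ˣ n ∧
      powIdx (v.Kv)ˣ n = n * quotCard v.Loc n * Nat.card (rootsOfUnity n v.Kv) :=
  powIdx_field (O := v.Loc) v.Kv (n := n) (by exact_mod_cast hn)

/-- `|μ_n(K_v)| = n` if `L` contains a primitive `n`-th root of unity -/
theorem card_rootsOfUnity_Kv {n : ℕ} [NeZero n] {ζ : L} (hζ : IsPrimitiveRoot ζ n) :
    Nat.card (rootsOfUnity n v.Kv) = n := by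
  have h := hζ.map_of_injective v.locToKv_comp_inclL_injective
  exact h.card_rootsOfUnity

end PrimeOver

end Fermat.Agent.CFT.Dict
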